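import Fermat.Agent.H4.IntVal
import Fermat.Agent.H71.AddVal
import Mathlib.RingTheory.Algebraic.Basic
import Mathlib.Data.Nat.Factorization.Basic
import Mathlib.Algebra.Polynomial.AlgebraMap

/-!
# A real-valued additive valuation attached to a valuation subring over a prime

Let `L` be an algebraic extension of `ℚ` and `A` a valuation subring of `L` in which the prime
`q` is not a unit.  Every value `v x` (`x ≠ 0`) is commensurable with `v q`:
`v x ^ n = v q ^ m` for some `n > 0` and `m : ℤ`.  Setting `w x = m / n` gives a real-valued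
additive valuation whose order is opposite to the order of `v`.
-/

set_option autoImplicit false

namespace Fermat.Agent.H4

section MaxTwice

variable {L : Type*} [Field L] {Γ₀ : Type*} [LinearOrderedCommGroupWithZero Γ₀]

/-- In a vanishing sum of nonzero terms, two distinct terms have the same valuation. -/
theorem exists_ne_val_eq_of_sum_eq_zero (v : Valuation L Γ₀) {ι : Type*} [DecidableEq ι]
    (s : Finset ι) (g : ι → L) (hs : s.Nonempty) (hg : ∀ i ∈ s, g i ≠ 0)
    (hsum : ∑ i ∈ s, g i = 0) : ∃ i ∈ s, ∃ j ∈ s, i ≠ j ∧ v (g i) = v (g j) := by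
  obtain ⟨i₀, hi₀, hmax⟩ := Finset.exists_max_image s (fun i => v (g i)) hs
  by_contra hcon
  push Not at hcon
  have hlt : ∀ j ∈ s.erase i₀, v (g j) < v (g i₀) := by
    intro j hj
    have hj' := Finset.mem_erase.mp hj
    exact lt_of_le_of_ne (hmax j hj'.2) (fun h => hcon i₀ hi₀ j hj'.2 (Ne.symm hj'.1) h.symm)
  have h0 : v (g i₀) ≠ 0 := (Valuation.ne_zero_iff v).mpr (hg i₀ hi₀)
  have h1 : v (∑ j ∈ s.erase i₀, g j) < v (g i₀) := Valuation.map_sum_lt v h0 hlt
  have h2 : v (g i₀ + ∑ j ∈ s.erase i₀, g j) = v (g i₀) := Valuation.map_add_eq_of_lt_left v h1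
  rw [Finset.add_sum_erase s g hi₀, hsum, map_zero] at h2
  exact h0 h2.symm

end MaxTwice

section Commensurable

variable {L : Type*} [Field L] (A : ValuationSubring L)

theorem val_intCast_eq_natAbs (z : ℤ) :
    A.valuation (z : L) = A.valuation (z.natAbs : L) := by
  rcases Int.natAbs_eq z with h | h
  · conv_lhs => rw [h]
    simp
  · conv_lhs => rw [h]
    simp [Valuation.map_neg]

theorem val_natCast_eq_pow {q : ℕ} (hq : q.Prime) (hvq : A.valuation (q : L) < 1) {n : ℕ}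
    (hn : n ≠ 0) : ∃ k : ℕ, A.valuation (n : L) = A.valuation (q : L) ^ k := by
  obtain ⟨e, n', hn', rfl⟩ := Nat.exists_eq_pow_mul_and_not_dvd hn q hq.ne_one
  refine ⟨e, ?_⟩
  push_cast
  rw [map_mul, map_pow, val_natCast_eq_one_of_not_dvd A hq hvq hn', mul_one]

variable [Algebra ℚ L]

theorem val_rat_eq_zpow {q : ℕ} (hq : q.Prime) (hvq : A.valuation (q : L) < 1)
    (hq0 : (q : L) ≠ 0) {c : ℚ} (hc : c ≠ 0) :
    ∃ m : ℤ, A.valuation (algebraMap ℚ L c) = A.valuation (q : L) ^ m := by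
  have hnum : c.num.natAbs ≠ 0 := Int.natAbs_ne_zero.mpr (Rat.num_ne_zero.mpr hc)
  obtain ⟨k₁, h₁⟩ := val_natCast_eq_pow A hq hvq hnum
  obtain ⟨k₂, h₂⟩ := val_natCast_eq_pow A hq hvq c.den_ne_zero
  refine ⟨(k₁ : ℤ) - k₂, ?_⟩
  have hc' : algebraMap ℚ L c = (c.num : L) / (c.den : L) := by
    conv_lhs => rw [← Rat.num_div_den c]
    rw [map_div₀, map_intCast, map_natCast]
  have hg0 : A.valuation (q : L) ≠ 0 := (Valuation.ne_zero_iff _).mpr hq0
  rw [hc', map_div₀, val_intCast_eq_natAbs, h₁, h₂, zpow_sub₀ hg0, zpow_natCast, zpow_natCast]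

/-- Every value is commensurable with the value of `q`. -/
theorem exists_val_pow_eq_zpow {q : ℕ} (hq : q.Prime) (hvq : A.valuation (q : L) < 1)
    (hq0 : (q : L) ≠ 0) {x : L} (hx : x ≠ 0) (halg : IsAlgebraic ℚ x) :
    ∃ n : ℕ, 0 < n ∧ ∃ m : ℤ, A.valuation x ^ n = A.valuation (q : L) ^ m := by
  classical
  obtain ⟨p, hp0, hp⟩ := halg
  have hsum : ∑ i ∈ p.support, algebraMap ℚ L (p.coeff i) * x ^ i = 0 := by
    rw [← hp, Polynomial.aeval_def, Polynomial.eval₂_eq_sum, Polynomial.sum_def]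
  have hg : ∀ i ∈ p.support, algebraMap ℚ L (p.coeff i) * x ^ i ≠ 0 := by
    intro i hi
    exact mul_ne_zero ((map_ne_zero _).mpr (Polynomial.mem_support_iff.mp hi)) (pow_ne_zero _ hx)
  have hvx : A.valuation x ≠ 0 := (Valuation.ne_zero_iff _).mpr hx
  have hg0 : A.valuation (q : L) ≠ 0 := (Valuation.ne_zero_iff _).mpr hq0
  have key : ∀ i j : ℕ, i ∈ p.support → j ∈ p.support → i < j →
      A.valuation (algebraMap ℚ L (p.coeff i) * x ^ i) =
        A.valuation (algebraMap ℚ L (p.coeff j) * x ^ j) →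
      ∃ n : ℕ, 0 < n ∧ ∃ m : ℤ, A.valuation x ^ n = A.valuation (q : L) ^ m := by
    intro i j hi hj hij hv
    obtain ⟨mi, hmi⟩ := val_rat_eq_zpow A hq hvq hq0 (Polynomial.mem_support_iff.mp hi)
    obtain ⟨mj, hmj⟩ := val_rat_eq_zpow A hq hvq hq0 (Polynomial.mem_support_iff.mp hj)
    obtain ⟨d, rfl⟩ : ∃ d, j = i + d + 1 := Nat.exists_eq_add_of_lt hij
    refine ⟨d + 1, Nat.succ_pos d, mi - mj, ?_⟩
    rw [map_mul, map_mul, map_pow, map_pow, hmi, hmj, add_assoc, pow_add] at hv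
    rw [zpow_sub₀ hg0, eq_div_iff (zpow_ne_zero _ hg0)]
    have h3 : A.valuation (q : L) ^ mi * A.valuation x ^ i =
        (A.valuation x ^ (d + 1) * A.valuation (q : L) ^ mj) * A.valuation x ^ i := by
      rw [hv]
      simp only [mul_comm, mul_left_comm]
    exact (mul_right_cancel₀ (pow_ne_zero i hvx) h3).symm
  obtain ⟨i, hi, j, hj, hij, hv⟩ := exists_ne_val_eq_of_sum_eq_zero A.valuation p.support _
    (Polynomial.nonempty_support_iff.mpr hp0) hg hsum
  rcases lt_or_gt_of_ne hij with h | h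
  · exact key i j hi hj h hv
  · exact key j i hj hi h hv.symm

end Commensurable

section Construction

variable {L : Type*} [Field L] [Algebra ℚ L] [Algebra.IsAlgebraic ℚ L]

/-- A real-valued additive valuation order-compatible with `A.valuation`. -/
theorem exists_addVal_of_nonunit (A : ValuationSubring L) {q : ℕ} (hq : q.Prime)
    (hvq : A.valuation (q : L) < 1) (hq0 : (q : L) ≠ 0) :
    ∃ w : Fermat.Agent.H71.AddVal L, ∀ x y : L, x ≠ 0 → y ≠ 0 →
      (w.w x ≤ w.w y ↔ A.valuation y ≤ A.valuation x) := by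
  classical
  have hg0 : 0 < A.valuation (q : L) := zero_lt_iff.mpr ((Valuation.ne_zero_iff _).mpr hq0)
  have hex : ∀ x : L, x ≠ 0 → ∃ n : ℕ, 0 < n ∧ ∃ m : ℤ,
      A.valuation x ^ n = A.valuation (q : L) ^ m :=
    fun x hx => exists_val_pow_eq_zpow A hq hvq hq0 hx (Algebra.IsAlgebraic.isAlgebraic x)
  choose! N hN M hNM using hex
  -- the key comparison lemma
  have K : ∀ (a b : A.ValueGroup) (n n' : ℕ) (m m' : ℤ), 0 < n → 0 < n' →
      a ^ n = A.valuation (q : L) ^ m → b ^ n' = A.valuation (q : L) ^ m' →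
      (b ≤ a ↔ (m : ℝ) / n ≤ (m' : ℝ) / n') := by
    intro a b n n' m m' hn hn' ha hb
    have hnn : n * n' ≠ 0 := mul_ne_zero hn.ne' hn'.ne'
    have ha' : a ^ (n * n') = A.valuation (q : L) ^ (m * n') := by
      rw [pow_mul, ha, zpow_mul, zpow_natCast]
    have hb' : b ^ (n * n') = A.valuation (q : L) ^ (m' * n) := by
      rw [mul_comm n n', pow_mul, hb, zpow_mul, zpow_natCast]
    rw [← pow_le_pow_iff_left₀ zero_le zero_le hnn, ha', hb',
      zpow_le_zpow_iff_right_of_lt_one₀ hg0 hvq,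
      div_le_div_iff₀ (by exact_mod_cast hn) (by exact_mod_cast hn')]
    constructor
    · intro h
      exact_mod_cast h
    · intro h
      exact_mod_cast h
  have Kuniq : ∀ (a : A.ValueGroup) (n n' : ℕ) (m m' : ℤ), 0 < n → 0 < n' →
      a ^ n = A.valuation (q : L) ^ m → a ^ n' = A.valuation (q : L) ^ m' →
      (m : ℝ) / n = (m' : ℝ) / n' := by
    intro a n n' m m' hn hn' ha hb
    exact le_antisymm ((K a a n n' m m' hn hn' ha hb).mp le_rfl)
      ((K a a n' n m' m hn' hn hb ha).mp le_rfl)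
  have hcompat : ∀ x y : L, x ≠ 0 → y ≠ 0 →
      ((M x : ℝ) / N x ≤ (M y : ℝ) / N y ↔ A.valuation y ≤ A.valuation x) := by
    intro x y hx hy
    exact (K _ _ _ _ _ _ (hN x hx) (hN y hy) (hNM x hx) (hNM y hy)).symm
  refine ⟨⟨fun x => (M x : ℝ) / N x, ?_, ?_⟩, hcompat⟩
  · intro x y hx hy
    have hxy : x * y ≠ 0 := mul_ne_zero hx hy
    have h1 : A.valuation (x * y) ^ (N x * N y) =
        A.valuation (q : L) ^ (M x * N y + M y * N x) := by
      rw [map_mul, mul_pow, pow_mul, hNM x hx, mul_comm (N x) (N y), pow_mul, hNM y hy,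
        zpow_add₀ hg0.ne', zpow_mul, zpow_mul, zpow_natCast, zpow_natCast]
    have h2 := Kuniq _ _ _ _ _ (hN _ hxy) (Nat.mul_pos (hN x hx) (hN y hy)) (hNM _ hxy) h1
    have hNx : (N x : ℝ) ≠ 0 := by exact_mod_cast (hN x hx).ne'
    have hNy : (N y : ℝ) ≠ 0 := by exact_mod_cast (hN y hy).ne'
    show (M (x * y) : ℝ) / N (x * y) = (M x : ℝ) / N x + (M y : ℝ) / N y
    rw [h2]
    push_cast
    field_simp
  · intro x y hx hy hxy
    show min ((M x : ℝ) / N x) ((M y : ℝ) / N y) ≤ (M (x + y) : ℝ) / N (x + y)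
    rcases le_max_iff.mp (Valuation.map_add A.valuation x y) with h | h
    · exact min_le_iff.mpr (Or.inl ((hcompat x (x + y) hx hxy).mpr h))
    · exact min_le_iff.mpr (Or.inr ((hcompat y (x + y) hy hxy).mpr h))

end Construction

end Fermat.Agent.H4
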