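import Fermat.Agent.H4.Leg
import Fermat.Agent.H71.Component

/-!
# Adapter: the component statement (F3) in multiplicative form from the additive core

Given a real-valued additive valuation `w` which is order-compatible with the valuation `v`, the
additive core `Fermat.Agent.H71.torsion_node` yields the multiplicative shape used by the
assembly of `S05`.
-/

set_option autoImplicit false

namespace Fermat.Agent.H4

open WeierstrassCurve WeierstrassCurve.Affine

variable {L : Type*} [Field L] [DecidableEq L]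
variable {Γ₀ : Type*} [LinearOrderedCommGroupWithZero Γ₀]

/-- The component statement in multiplicative form, given a compatible real-valued valuation. -/
theorem IsLeg.torsion_val_of_addVal {W : WeierstrassCurve.Affine L} {ε e : L}
    (hW : IsLeg W ε e) (v : Valuation L Γ₀) (w : Fermat.Agent.H71.AddVal L)
    (hc : ∀ x y : L, x ≠ 0 → y ≠ 0 → (w.w x ≤ w.w y ↔ v y ≤ v x))
    (hv2 : v 2 = 1) (he : v e = 1) (hε1 : v ε < 1) (hε0 : ε ≠ 0) {p : ℕ} (hp : Odd p)
    {x y : L} (h : W.Nonsingular x y) (hx2 : v x < 1)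
    (hP : p • Point.some x y h = 0) : ∃ j : ℤ, v x ^ p = v ε ^ (2 * j) := by
  have heq : ∀ x y : L, x ≠ 0 → y ≠ 0 → (w.w x = w.w y ↔ v x = v y) := by
    intro x y hx hy
    constructor
    · intro hxy
      exact le_antisymm ((hc y x hy hx).mp hxy.ge) ((hc x y hx hy).mp hxy.le)
    · intro hxy
      exact le_antisymm ((hc x y hx hy).mpr hxy.ge) ((hc y x hy hx).mpr hxy.le)
  have hone : ∀ x : L, x ≠ 0 → v x = 1 → w.w x = 0 := by
    intro x hx hx1
    rw [← w.w_one]
    exact (heq x 1 hx one_ne_zero).mpr (by rw [hx1, map_one])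
  have hpos : ∀ x : L, x ≠ 0 → v x < 1 → 0 < w.w x := by
    intro x hx hx1
    rw [← w.w_one]
    by_contra hcon
    rw [not_lt] at hcon
    have := (hc x 1 hx one_ne_zero).mp hcon
    rw [map_one] at this
    exact absurd hx1 (not_lt.mpr this)
  have h2 : (2 : L) ≠ 0 := by
    intro h0
    rw [h0, map_zero] at hv2
    exact zero_ne_one hv2
  have he0 : e ≠ 0 := by
    intro h0
    rw [h0, map_zero] at he
    exact zero_ne_one he
  have hva2 : v W.a₂ = 1 := by
    rw [hW.a₂, Valuation.map_neg, Valuation.map_add_eq_of_lt_right v (by rw [he]; exact hε1), he]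
  have ha2 : W.a₂ ≠ 0 := by
    intro h0
    rw [h0, map_zero] at hva2
    exact zero_ne_one hva2
  have ha4 : W.a₄ ≠ 0 := by
    rw [hW.a₄]
    exact mul_ne_zero hε0 he0
  have hva4 : v W.a₄ = v ε := by
    rw [hW.a₄, map_mul, he, mul_one]
  have hS : Fermat.Agent.H71.IsShort W := ⟨hW.a₁, hW.a₃, hW.a₆⟩
  have hd : Fermat.Agent.H71.NodeData w W.a₂ W.a₄ :=
    ⟨h2, hone 2 h2 hv2, ha2, hone _ ha2 hva2, ha4, hpos _ ha4 (by rw [hva4]; exact hε1)⟩
  have hx : x = 0 ∨ 0 < w.w x := by
    by_cases hx0 : x = 0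
    · exact Or.inl hx0
    · exact Or.inr (hpos x hx0 hx2)
  obtain ⟨hx0, -, -, k, hk⟩ := Fermat.Agent.H71.torsion_node hS hd h hp hP hx
  refine ⟨k, ?_⟩
  have hwa4 : w.w W.a₄ = w.w ε := (heq _ _ ha4 hε0).mpr hva4
  have hww : w.w (x ^ p) = w.w (ε ^ (2 * k)) := by
    rw [w.w_pow hx0, w.w_zpow hε0, hk, hwa4]
    push_cast
    ring
  have := (heq _ _ (pow_ne_zero p hx0) (zpow_ne_zero _ hε0)).mp hww
  rwa [map_pow, map_zpow₀] at this

end Fermat.Agent.H4
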