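import Mathlib.RingTheory.Valuation.RamificationGroup
import Mathlib.RingTheory.Valuation.ValuationSubring
import Mathlib.FieldTheory.IsAlgClosed.AlgebraicClosure
import Fermat.Prelude.Def_FLTPrelim_Ramification

/-!
# Elementary consequences of membership in the inertia subgroup
-/

set_option autoImplicit false

namespace Fermat.Agent.H4

open ValuationSubring

variable {K L : Type*} [Field K] [Field L] [Algebra K L]

/-- An element of the inertia subgroup maps the valuation ring into itself. -/
theorem inertia_mem (A : ValuationSubring L) {σ : L ≃ₐ[K] L} (hσ : σ ∈ A.inertiaSubgroupIn K)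
    {c : L} (hc : c ∈ A) : σ c ∈ A := by
  obtain ⟨τ, -, rfl⟩ := hσ
  exact ((A.subMulAction K).smul_mem τ hc)

/-- An element of the inertia subgroup acts trivially modulo the maximal ideal. -/
theorem inertia_sub_mem_nonunits (A : ValuationSubring L) {σ : L ≃ₐ[K] L}
    (hσ : σ ∈ A.inertiaSubgroupIn K) {c : L} (hc : c ∈ A) : σ c - c ∈ A.nonunits := by
  obtain ⟨τ, hτ, rfl⟩ := hσ
  have h1 : (MulSemiringAction.toRingAut (A.decompositionSubgroup K)
      (IsLocalRing.ResidueField A)) τ = 1 := hτ
  have h2 : τ • (IsLocalRing.residue A ⟨c, hc⟩) = IsLocalRing.residue A ⟨c, hc⟩ := by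
    have := congrArg (fun f : RingAut (IsLocalRing.ResidueField A) =>
      f (IsLocalRing.residue A ⟨c, hc⟩)) h1
    simpa using this
  have h3 : IsLocalRing.residue A (τ • (⟨c, hc⟩ : A)) = IsLocalRing.residue A ⟨c, hc⟩ := by
    rw [← h2]; rfl
  have h4 : (τ • (⟨c, hc⟩ : A)) - ⟨c, hc⟩ ∈ IsLocalRing.maximalIdeal A := by
    rw [← Ideal.Quotient.eq]; exact h3
  have h5 := (A.valuation_lt_one_iff _).mp h4
  rw [ValuationSubring.mem_nonunits_iff]
  exact h5

theorem inertia_val_sub_lt_one (A : ValuationSubring L) {σ : L ≃ₐ[K] L}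
    (hσ : σ ∈ A.inertiaSubgroupIn K) {c : L} (hc : A.valuation c ≤ 1) :
    A.valuation (σ c - c) < 1 :=
  (ValuationSubring.mem_nonunits_iff A).mp
    (inertia_sub_mem_nonunits A hσ ((A.valuation_le_one_iff c).mp hc))

end Fermat.Agent.H4
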