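import Mathlib.RingTheory.Valuation.ValuationSubring
import Mathlib.RingTheory.Int.Basic
import Mathlib.Data.Nat.Prime.Basic
import Mathlib.Tactic

/-!
# Valuations of integers in a valuation subring lying over a prime
-/

set_option autoImplicit false

namespace Fermat.Agent.H4

variable {L : Type*} [Field L]

theorem val_intCast_le_one (A : ValuationSubring L) (n : ℤ) : A.valuation (n : L) ≤ 1 :=
  (A.valuation_le_one_iff _).mpr (intCast_mem A n)

theorem val_natCast_le_one (A : ValuationSubring L) (n : ℕ) : A.valuation (n : L) ≤ 1 :=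
  (A.valuation_le_one_iff _).mpr (natCast_mem A n)

/-- If `q` is a non-unit of `A` and `q ∣ n` then `n` is a non-unit. -/
theorem val_intCast_lt_one_of_dvd (A : ValuationSubring L) {q : ℕ}
    (hq : A.valuation (q : L) < 1) {n : ℤ} (h : (q : ℤ) ∣ n) : A.valuation (n : L) < 1 := by
  obtain ⟨m, rfl⟩ := h
  push_cast
  rw [map_mul]
  exact lt_of_le_of_lt (mul_le_of_le_one_right' (val_intCast_le_one A m)) hq

/-- If `q` is a prime non-unit of `A` and `q ∤ n` then `n` is a unit. -/
theorem val_intCast_eq_one_of_not_dvd (A : ValuationSubring L) {q : ℕ} (hqp : q.Prime)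
    (hq : A.valuation (q : L) < 1) {n : ℤ} (h : ¬ (q : ℤ) ∣ n) : A.valuation (n : L) = 1 := by
  have hcop : IsCoprime n (q : ℤ) := by
    rw [Int.isCoprime_iff_gcd_eq_one]
    have hq' : Prime (q : ℤ) := Nat.prime_iff_prime_int.mp hqp
    have := (Int.isCoprime_iff_gcd_eq_one).mp
      ((Prime.coprime_iff_not_dvd hq').mpr h)
    rw [Int.gcd_comm]; exact this
  obtain ⟨s, t, hst⟩ := hcop
  have h1 : (s : L) * (n : L) = 1 - (t : L) * (q : L) := by
    have := congrArg (fun z : ℤ => (z : L)) hst
    push_cast at this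
    linear_combination this
  have h2 : A.valuation ((t : L) * (q : L)) < 1 := by
    rw [map_mul]
    exact lt_of_le_of_lt (mul_le_of_le_one_left' (val_intCast_le_one A t)) hq
  have h3 : A.valuation ((s : L) * (n : L)) = 1 := by
    rw [h1]
    exact Valuation.map_one_sub_of_lt _ h2
  rw [map_mul] at h3
  have hs := val_intCast_le_one A s
  have hn := val_intCast_le_one A n
  rcases lt_or_eq_of_le hn with hlt | heq
  · exfalso
    have : A.valuation (s : L) * A.valuation (n : L) < 1 := by
      exact lt_of_le_of_lt (mul_le_of_le_one_left' hs) hlt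
    exact absurd h3 (ne_of_lt this)
  · exact heq

theorem val_natCast_eq_one_of_not_dvd (A : ValuationSubring L) {q : ℕ} (hqp : q.Prime)
    (hq : A.valuation (q : L) < 1) {n : ℕ} (h : ¬ q ∣ n) : A.valuation (n : L) = 1 := by
  have := val_intCast_eq_one_of_not_dvd A hqp hq (n := (n : ℤ))
    (fun hd => h (Int.natCast_dvd_natCast.mp hd))
  simpa using this

end Fermat.Agent.H4
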