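import Mathlib.AlgebraicGeometry.EllipticCurve.Affine.Point
import Mathlib.RingTheory.Valuation.Basic
import Mathlib.Tactic

/-!
# Short Weierstrass curves: explicit collinearity relations for the group law

A Weierstrass curve `W` over a field is *short* (`IsShort W`) if `a₁ = a₃ = 0`, i.e. it is
`y² = x³ + a₂ x² + a₄ x + a₆`.
The main result `IsShort.add_rel` unfolds Mathlib's addition of two affine points into
the classical chord/tangent relations (uniformly for chord and tangent).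

We also fix the basic vocabulary used by the whole `H4` development:
* `InE1 v P` : the point `P` lies in the kernel of reduction w.r.t. the valuation `v`
  (it is `0` or its `x`-coordinate is non-integral).
-/

set_option autoImplicit false

namespace Fermat.Agent.H4

open WeierstrassCurve WeierstrassCurve.Affine

variable {L : Type*} [Field L]

/-- `W` is in short Weierstrass form `y² = x³ + a₂ x² + a₄ x + a₆`. -/
structure IsShort (W : WeierstrassCurve.Affine L) : Prop where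
  a₁ : W.a₁ = 0
  a₃ : W.a₃ = 0

namespace IsShort

variable {W : WeierstrassCurve.Affine L} (hW : IsShort W)

include hW

lemma equation_iff (x y : L) :
    W.Equation x y ↔ y ^ 2 = x ^ 3 + W.a₂ * x ^ 2 + W.a₄ * x + W.a₆ := by
  rw [Affine.equation_iff, hW.a₁, hW.a₃]
  simp

lemma nonsingular_iff (x y : L) :
    W.Nonsingular x y ↔
      y ^ 2 = x ^ 3 + W.a₂ * x ^ 2 + W.a₄ * x + W.a₆ ∧
        (3 * x ^ 2 + 2 * W.a₂ * x + W.a₄ ≠ 0 ∨ y ≠ -y) := by
  rw [Affine.nonsingular_iff, hW.equation_iff, hW.a₁, hW.a₃]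
  simp only [zero_mul, sub_zero]
  constructor
  · rintro ⟨h, h' | h'⟩
    · exact ⟨h, Or.inl fun h0 => h' h0.symm⟩
    · exact ⟨h, Or.inr h'⟩
  · rintro ⟨h, h' | h'⟩
    · exact ⟨h, Or.inl fun h0 => h' h0.symm⟩
    · exact ⟨h, Or.inr h'⟩

lemma negY (x y : L) : W.negY x y = -y := by
  simp [Affine.negY, hW.a₁, hW.a₃]

lemma nonsingular_neg {x y : L} (h : W.Nonsingular x y) : W.Nonsingular x (-y) := by
  have := (Affine.nonsingular_neg (W' := W) x y).mpr h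
  rwa [hW.negY] at this

lemma neg_some {x y : L} (h : W.Nonsingular x y) :
    -(Point.some x y h) = Point.some x (-y) (hW.nonsingular_neg h) := by
  rw [Point.neg_some]
  congr 1
  exact hW.negY ..

variable [DecidableEq L]

lemma add_eq_zero_of {x₁ y₁ x₂ y₂ : L} (h₁ : W.Nonsingular x₁ y₁) (h₂ : W.Nonsingular x₂ y₂)
    (hx : x₁ = x₂) (hy : y₁ = -y₂) : Point.some x₁ y₁ h₁ + Point.some x₂ y₂ h₂ = 0 :=
  Point.add_of_Y_eq hx (by rw [hW.negY]; exact hy)

/-- **Collinearity relations.** For two affine points `P₁ = (x₁,y₁)`, `P₂ = (x₂,y₂)` on a short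
Weierstrass curve with `P₁ ≠ -P₂`, the sum `P₃ = (x₃,y₃)` is affine and there is a line
`y = ℓ x + ν` through `P₁`, `P₂`, `-P₃` with the classical symmetric-function relations.
Uniform in the chord (`x₁ ≠ x₂`) and tangent (`P₁ = P₂`) cases. -/
theorem add_rel {x₁ y₁ x₂ y₂ : L}
    (h₁ : W.Nonsingular x₁ y₁) (h₂ : W.Nonsingular x₂ y₂)
    (hne : ¬(x₁ = x₂ ∧ y₁ = -y₂)) :
    ∃ (x₃ y₃ ℓ ν : L) (h₃ : W.Nonsingular x₃ y₃),
      Point.some x₁ y₁ h₁ + Point.some x₂ y₂ h₂ = Point.some x₃ y₃ h₃ ∧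
      y₁ = ℓ * x₁ + ν ∧ y₂ = ℓ * x₂ + ν ∧ -y₃ = ℓ * x₃ + ν ∧
      x₁ + x₂ + x₃ = ℓ ^ 2 - W.a₂ ∧
      x₁ * x₂ + x₁ * x₃ + x₂ * x₃ = W.a₄ - 2 * ℓ * ν ∧
      x₁ * x₂ * x₃ = ν ^ 2 - W.a₆ ∧
      ℓ * (y₁ + y₂) = x₁ ^ 2 + x₁ * x₂ + x₂ ^ 2 + W.a₂ * (x₁ + x₂) + W.a₄ ∧
      ν * (x₁ * y₂ + x₂ * y₁) = W.a₄ * x₁ * x₂ + W.a₆ * (x₁ + x₂) - x₁ ^ 2 * x₂ ^ 2 := by
  have e₁ := (hW.equation_iff x₁ y₁).mp h₁.1
  have e₂ := (hW.equation_iff x₂ y₂).mp h₂.1
  have hne' : ¬(x₁ = x₂ ∧ y₁ = W.negY x₂ y₂) := by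
    rwa [hW.negY]
  set ℓ := W.slope x₁ x₂ y₁ y₂ with hℓ
  refine ⟨W.addX x₁ x₂ ℓ, W.addY x₁ x₂ y₁ ℓ, ℓ, y₁ - ℓ * x₁,
    Affine.nonsingular_add h₁ h₂ hne', Point.add_some hne', ?_⟩
  simp only [Affine.addY, Affine.negAddY, Affine.addX, hW.negY, hW.a₁,
    zero_mul, add_zero]
  by_cases hx : x₁ = x₂
  · -- tangent case
    subst hx
    have hy : y₁ = y₂ := by
      have h12 : (y₁ - y₂) * (y₁ + y₂) = 0 := by linear_combination e₁ - e₂
      rcases mul_eq_zero.mp h12 with h | h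
      · exact sub_eq_zero.mp h
      · exact absurd ⟨rfl, eq_neg_of_add_eq_zero_left h⟩ hne
    subst hy
    have hy0 : y₁ + y₁ ≠ 0 := fun h => hne ⟨rfl, eq_neg_of_add_eq_zero_left h⟩
    have hden : y₁ - W.negY x₁ y₁ = y₁ + y₁ := by
      rw [hW.negY]; ring
    have hℓ' : ℓ * (y₁ + y₁) = 3 * x₁ ^ 2 + 2 * W.a₂ * x₁ + W.a₄ := by
      rw [hℓ, Affine.slope_of_Y_ne rfl (fun h => hne' ⟨rfl, h⟩), hden, div_mul_cancel₀ _ hy0,
        hW.a₁]
      simp
    refine ⟨by ring, by ring, by ring, by ring, ?_, ?_, ?_, ?_⟩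
    · linear_combination hℓ'
    · linear_combination x₁ * hℓ' - e₁
    · linear_combination hℓ'
    · linear_combination 2 * x₁ * e₁ - x₁ ^ 2 * hℓ'
  · -- chord case
    have hx' : x₁ - x₂ ≠ 0 := sub_ne_zero.mpr hx
    have hℓ' : ℓ * (x₁ - x₂) = y₁ - y₂ := by
      rw [hℓ, Affine.slope_of_X_ne hx, div_mul_cancel₀ _ hx']
    have hconj : ℓ * (y₁ + y₂) = x₁ ^ 2 + x₁ * x₂ + x₂ ^ 2 + W.a₂ * (x₁ + x₂) + W.a₄ := by
      apply mul_right_cancel₀ hx'
      linear_combination (y₁ + y₂) * hℓ' + e₁ - e₂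
    refine ⟨by ring, by linear_combination hℓ', by ring, by ring, ?_, ?_, hconj, ?_⟩
    · linear_combination (-ℓ) * hℓ' + hconj
    · linear_combination x₁ * ((-ℓ) * hℓ' + hconj) - e₁
    · have hν : (y₁ - ℓ * x₁) * (x₁ - x₂) = x₁ * y₂ - x₂ * y₁ := by
        linear_combination (-x₁) * hℓ'
      apply mul_right_cancel₀ hx'
      linear_combination (x₁ * y₂ + x₂ * y₁) * hν + x₁ ^ 2 * e₂ - x₂ ^ 2 * e₁

end IsShort

section Valuation

variable {Γ₀ : Type*} [LinearOrderedCommGroupWithZero Γ₀] (v : Valuation L Γ₀)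

/-- The point `P` lies in the kernel of reduction: it is `0` or has non-integral `x`-coordinate. -/
def InE1 {W : WeierstrassCurve.Affine L} : W.Point → Prop
  | .zero => True
  | .some x _ _ => 1 < v x

@[simp] lemma inE1_zero {W : WeierstrassCurve.Affine L} : InE1 v (0 : W.Point) := trivial

@[simp] lemma inE1_some {W : WeierstrassCurve.Affine L} {x y : L} (h : W.Nonsingular x y) :
    InE1 v (Point.some x y h) ↔ 1 < v x := Iff.rfl

end Valuation

end Fermat.Agent.H4
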