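import Fermat.Agent.H4.ShortMain
import Fermat.Agent.H4.F3Adapter
import Fermat.Agent.H4.Bridge
import Fermat.Agent.H46.Transfer
import Fermat.Agent.H4.Inertia
import Fermat.Agent.H4.IntVal
import Fermat.Prelude.Def_FLTPrelim_Ramification

/-!
# The mod `p` representation of the Frey curve is unramified at `q ∉ {2, p}`
-/

set_option autoImplicit false

namespace Fermat.Agent.H4

open WeierstrassCurve WeierstrassCurve.Affine
open Fermat.Agent.H46 (shortOf toShort toShort_injective toShort_smul)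

local notation "Qbar" => AlgebraicClosure ℚ

/-- Transport of the fixed-point statement along `toShort`. -/
theorem fixed_of_short (W : WeierstrassCurve.Affine ℚ) (r : ℚ) (σ : Qbar ≃ₐ[ℚ] Qbar) (n : ℕ)
    (hfix : ∀ {x y : Qbar} (h : ((shortOf W r).baseChange Qbar).Nonsingular x y)
      (h' : ((shortOf W r).baseChange Qbar).Nonsingular (σ x) (σ y)),
      n • Point.some x y h = 0 → n • Point.some (σ x) (σ y) h' = 0 → σ x = x ∧ σ y = y)
    (x : (W.baseChange Qbar).Point) (hx : n • x = 0) : σ • x = x := by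
  have h2 : (2 : Qbar) ≠ 0 := two_ne_zero
  apply toShort_injective W r h2
  rw [toShort_smul]
  have hx' : n • toShort W r h2 x = 0 := by rw [← map_nsmul, hx, map_zero]
  generalize toShort W r h2 x = x' at hx'
  rcases x' with _ | ⟨x₀, y₀, h₀⟩
  · rfl
  · have hmap : σ • Point.some x₀ y₀ h₀ = Point.some (σ x₀) (σ y₀)
        ((WeierstrassCurve.Affine.baseChange_nonsingular (shortOf W r)
          σ.toAlgHom.injective ..).mpr h₀) := rfl
    have hx'' : n • (σ • Point.some x₀ y₀ h₀) = 0 := by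
      rw [WeierstrassCurve.Affine.Point.algEquiv_smul_def, ← map_nsmul, hx', map_zero]
    rw [hmap] at hx'' ⊢
    obtain ⟨e1, e2⟩ := hfix h₀ _ hx' hx''
    simp only [e1, e2]

end Fermat.Agent.H4

namespace Fermat.Agent.H4

open WeierstrassCurve WeierstrassCurve.Affine
open Fermat.Agent.H46 (shortOf toShort toShort_injective toShort_smul)

local notation "Qbar" => AlgebraicClosure ℚ

section legModels

variable (P : FreyPackage)

lemma frey_b₂ : P.freyCurve.b₂ = (P.b : ℚ) ^ P.p - (P.a : ℚ) ^ P.p := by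
  simp only [WeierstrassCurve.b₂, FreyPackage.freyCurve]
  ring

lemma frey_b₄ : P.freyCurve.b₄ = -((P.a : ℚ) ^ P.p * (P.b : ℚ) ^ P.p) / 8 := by
  simp only [WeierstrassCurve.b₄, FreyPackage.freyCurve]
  ring

lemma frey_b₆ : P.freyCurve.b₆ = 0 := by
  simp only [WeierstrassCurve.b₆, FreyPackage.freyCurve]
  ring

lemma frey_hFLT_Q : (P.a : ℚ) ^ P.p + (P.b : ℚ) ^ P.p = (P.c : ℚ) ^ P.p := by
  exact_mod_cast P.hFLT

lemma frey_hFLT_Qbar : (P.a : Qbar) ^ P.p + (P.b : Qbar) ^ P.p = (P.c : Qbar) ^ P.p := by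
  exact_mod_cast P.hFLT

lemma leg_zero :
    IsLeg ((shortOf P.freyCurve 0).baseChange Qbar) ((P.a : Qbar) ^ P.p) (-(P.b : Qbar) ^ P.p) := by
  refine ⟨⟨?_, ?_⟩, ?_, ?_, ?_⟩
  · simp [shortOf]
  · simp [shortOf]
  · simp only [shortOf, frey_b₂, WeierstrassCurve.Affine.baseChange_a₂]
    simp only [mul_zero, add_zero, map_sub, map_pow, map_intCast]
    ring
  · simp only [shortOf, frey_b₂, frey_b₄, WeierstrassCurve.Affine.baseChange_a₄]
    simp only [mul_zero, add_zero, map_mul, map_div₀, map_neg, map_pow, map_intCast, map_ofNat,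
      ne_eq, OfNat.ofNat_ne_zero, not_false_eq_true, zero_pow]
    ring
  · simp [shortOf, frey_b₆]

lemma leg_zero' :
    IsLeg ((shortOf P.freyCurve 0).baseChange Qbar) (-(P.b : Qbar) ^ P.p) ((P.a : Qbar) ^ P.p) := by
  have h := leg_zero P
  refine ⟨h.toIsShort, ?_, ?_, h.a₆⟩
  · rw [h.a₂]; ring
  · rw [h.a₄]; ring

lemma leg_A :
    IsLeg ((shortOf P.freyCurve ((P.a : ℚ) ^ P.p)).baseChange Qbar)
      (-(P.c : Qbar) ^ P.p) (-(P.a : Qbar) ^ P.p) := by
  have hF := frey_hFLT_Qbar P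
  refine ⟨⟨?_, ?_⟩, ?_, ?_, ?_⟩
  · simp [shortOf]
  · simp [shortOf]
  · simp only [shortOf, frey_b₂, WeierstrassCurve.Affine.baseChange_a₂]
    simp only [map_add, map_sub, map_mul, map_pow, map_intCast, map_ofNat]
    linear_combination hF
  · simp only [shortOf, frey_b₂, frey_b₄, WeierstrassCurve.Affine.baseChange_a₄]
    simp only [map_add, map_sub, map_mul, map_div₀, map_neg, map_pow, map_intCast, map_ofNat]
    linear_combination ((P.a : Qbar) ^ P.p) * hF
  · simp only [shortOf, frey_b₂, frey_b₄, frey_b₆, WeierstrassCurve.Affine.baseChange_a₆]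
    simp only [map_add, map_sub, map_mul, map_div₀, map_neg, map_pow, map_intCast, map_ofNat,
      map_zero]
    ring

end legModels

/-- The main theorem in pointwise form. -/
theorem frey_point_fixed (P : FreyPackage) {q : ℕ} (hq : q.Prime) (hq2 : q ≠ 2) (hqp : q ≠ P.p)
    (A : ValuationSubring Qbar) (hA : A.LiesOverPrime q) (σ : Qbar ≃ₐ[ℚ] Qbar)
    (hσ : σ ∈ A.inertiaSubgroupIn ℚ)
    (x : (WeierstrassCurve.Affine.baseChange P.freyCurve Qbar).Point)
    (hx : P.p • x = 0) : σ • x = x := by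
  have hvq : A.valuation (q : Qbar) < 1 := (ValuationSubring.mem_nonunits_iff A).mp hA
  have hv2 : A.valuation (2 : Qbar) = 1 := by
    have := val_natCast_eq_one_of_not_dvd A hq hvq (n := 2)
      (fun h => hq2 ((Nat.prime_dvd_prime_iff_eq hq Nat.prime_two).mp h))
    simpa using this
  have hvp : A.valuation (P.p : Qbar) = 1 :=
    val_natCast_eq_one_of_not_dvd A hq hvq
      (fun h => hqp ((Nat.prime_dvd_prime_iff_eq hq P.pp).mp h))
  have hσv : ∀ c, A.valuation c ≤ 1 → A.valuation ((σ : Qbar →+* Qbar) c - c) < 1 :=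
    fun c hc => inertia_val_sub_lt_one A hσ hc
  have hσint : ∀ n : ℤ, (σ : Qbar →+* Qbar) (n : Qbar) = n := fun n => map_intCast _ n
  have hp2 : P.p ≠ 2 := by have := P.hp5; omega
  have hpodd : Odd P.p := P.pp.odd_of_ne_two hp2
  obtain ⟨w, hw⟩ := @exists_addVal_of_nonunit Qbar _ _ (AlgebraicClosure.isAlgebraic ℚ) A q hq hvq
    (Nat.cast_ne_zero.mpr hq.ne_zero)
  have hqZ : Prime (q : ℤ) := Nat.prime_iff_prime_int.mp hq
  -- valuation of integers
  have hunit : ∀ n : ℤ, ¬ (q : ℤ) ∣ n → A.valuation ((n : Qbar) ^ P.p) = 1 := by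
    intro n hn
    rw [map_pow, val_intCast_eq_one_of_not_dvd A hq hvq hn, one_pow]
  have hsmall : ∀ n : ℤ, (q : ℤ) ∣ n → A.valuation ((n : Qbar) ^ P.p) < 1 := by
    intro n hn
    rw [map_pow]
    exact pow_lt_one₀ zero_le (val_intCast_lt_one_of_dvd A hvq hn) P.hp0
  have hcop : ∀ {m n : ℤ}, gcd m n = 1 → (q : ℤ) ∣ m → ¬ (q : ℤ) ∣ n := by
    intro m n hg hm hn
    have := dvd_gcd hm hn
    rw [hg] at this
    exact hqZ.not_dvd_one this
  by_cases ha : (q : ℤ) ∣ P.a
  · -- multiplicative, `q ∣ a`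
    have hb : ¬ (q : ℤ) ∣ P.b := hcop P.hgcdab ha
    refine fixed_of_short P.freyCurve 0 σ P.p ?_ x hx
    intro x₀ y₀ h h' hP hP'
    exact (leg_zero P).galois_fixed_mult A.valuation (σ : Qbar →+* Qbar) hσv
      (by simp) (by simp)
      hv2 (by rw [Valuation.map_neg]; exact hunit _ hb)
      (pow_ne_zero _ (Int.cast_ne_zero.mpr P.ha0)) (hsmall _ ha) P.pp hp2 hvp
      (P.a : Qbar) (hσint _) (map_pow _ _ _)
      (fun h _ hx2 hP => (leg_zero P).torsion_val_of_addVal A.valuation w hw hv2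
        (by rw [Valuation.map_neg]; exact hunit _ hb) (hsmall _ ha)
        (pow_ne_zero _ (Int.cast_ne_zero.mpr P.ha0)) hpodd h hx2 hP) h h' hP hP'
  by_cases hb : (q : ℤ) ∣ P.b
  · -- multiplicative, `q ∣ b`
    refine fixed_of_short P.freyCurve 0 σ P.p ?_ x hx
    intro x₀ y₀ h h' hP hP'
    exact (leg_zero' P).galois_fixed_mult A.valuation (σ : Qbar →+* Qbar) hσv
      (by simp) (by simp)
      hv2 (hunit _ ha)
      (neg_ne_zero.mpr (pow_ne_zero _ (Int.cast_ne_zero.mpr P.hb0)))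
      (by rw [Valuation.map_neg]; exact hsmall _ hb) P.pp hp2 hvp
      (P.b : Qbar) (hσint _) (by rw [Valuation.map_neg, map_pow])
      (fun h _ hx2 hP => (leg_zero' P).torsion_val_of_addVal A.valuation w hw hv2 (hunit _ ha)
        (by rw [Valuation.map_neg]; exact hsmall _ hb)
        (neg_ne_zero.mpr (pow_ne_zero _ (Int.cast_ne_zero.mpr P.hb0))) hpodd h hx2 hP)
      h h' hP hP'
  by_cases hc : (q : ℤ) ∣ P.c
  · -- multiplicative, `q ∣ c`
    refine fixed_of_short P.freyCurve ((P.a : ℚ) ^ P.p) σ P.p ?_ x hx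
    intro x₀ y₀ h h' hP hP'
    exact (leg_A P).galois_fixed_mult A.valuation (σ : Qbar →+* Qbar) hσv
      (by simp) (by simp)
      hv2 (by rw [Valuation.map_neg]; exact hunit _ ha)
      (neg_ne_zero.mpr (pow_ne_zero _ (Int.cast_ne_zero.mpr P.hc0)))
      (by rw [Valuation.map_neg]; exact hsmall _ hc) P.pp hp2 hvp
      (P.c : Qbar) (hσint _) (by rw [Valuation.map_neg, map_pow])
      (fun h _ hx2 hP => (leg_A P).torsion_val_of_addVal A.valuation w hw hv2
        (by rw [Valuation.map_neg]; exact hunit _ ha)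
        (by rw [Valuation.map_neg]; exact hsmall _ hc)
        (neg_ne_zero.mpr (pow_ne_zero _ (Int.cast_ne_zero.mpr P.hc0))) hpodd h hx2 hP)
      h h' hP hP'
  · -- good reduction
    refine fixed_of_short P.freyCurve 0 σ P.p ?_ x hx
    intro x₀ y₀ h h' hP hP'
    refine (leg_zero P).galois_fixed_good A.valuation (σ : Qbar →+* Qbar) hσv hv2
      (hunit _ ha) (by rw [Valuation.map_neg]; exact hunit _ hb) ?_ hvp h h' hP hP'
    rw [sub_neg_eq_add, frey_hFLT_Qbar]
    exact hunit _ hc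

/-- The Frey curve's mod `p` representation is unramified at `q ∉ {2, p}`. -/
theorem frey_unramified (P : FreyPackage) {q : ℕ} (hq : q.Prime) (hq2 : q ≠ 2) (hqp : q ≠ P.p) :
    P.GaloisRepUnramifiedAt q := by
  intro A hA σ hσ x
  apply Subtype.ext
  have hx : P.p • x.val = 0 := by
    have := x.property
    rw [Submodule.mem_torsionBy_iff] at this
    rwa [Nat.cast_smul_eq_nsmul] at this
  exact frey_point_fixed P hq hq2 hqp A hA σ hσ x.val hx

end Fermat.Agent.H4
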