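import Fermat.Agent.H4.Leg
import Fermat.Agent.H56.S05.Node

/-!
# The node: translation by `T₀ = (0,0)`

Proved by helper56 (`Fermat.Agent.H56.S05.Node`).
-/

set_option autoImplicit false

namespace Fermat.Agent.H4

open WeierstrassCurve WeierstrassCurve.Affine

variable {L : Type*} [Field L] [DecidableEq L]

namespace IsLeg

variable {W : WeierstrassCurve.Affine L} {ε e : L} (hW : IsLeg W ε e)

include hW

/-- `T₀ = (0,0)` is a nonsingular point when `ε e ≠ 0`. -/
theorem nonsingular_T0 (hεe : ε * e ≠ 0) : W.Nonsingular 0 0 :=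
  Fermat.Agent.H56.nonsingular_T0 hW hεe

/-- Translation by `T₀ = (0,0)`: `(x,y) + T₀ = (εe/x, -εe y/x²)` for `x ≠ 0`. -/
theorem add_T0 (hεe : ε * e ≠ 0) {x y : L} (h : W.Nonsingular x y) (hx : x ≠ 0) :
    ∃ h' : W.Nonsingular (ε * e / x) (-(ε * e * y / x ^ 2)),
      Point.some x y h + Point.some 0 0 (hW.nonsingular_T0 hεe) =
        Point.some (ε * e / x) (-(ε * e * y / x ^ 2)) h' :=
  Fermat.Agent.H56.add_T0 hW hεe h hx

/-- `T₀` has order `2`. -/
theorem two_nsmul_T0 (hεe : ε * e ≠ 0) :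
    (2 : ℕ) • Point.some 0 0 (hW.nonsingular_T0 hεe) = 0 :=
  Fermat.Agent.H56.two_nsmul_T0 hW hεe

end IsLeg

end Fermat.Agent.H4
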