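import Mathlib.RingTheory.Valuation.Basic
import Mathlib.Tactic

/-!
# Small helper lemmas for (multiplicative) valuations
-/

set_option autoImplicit false

namespace Fermat.Agent.H4

variable {Γ₀ : Type*} [LinearOrderedCommGroupWithZero Γ₀]

lemma lt_one_mul_le {a b : Γ₀} (ha : a < 1) (hb : b ≤ 1) : a * b < 1 :=
  lt_of_le_of_lt (mul_le_of_le_one_right' hb) ha

lemma le_one_mul_lt {a b : Γ₀} (ha : a ≤ 1) (hb : b < 1) : a * b < 1 :=
  lt_of_le_of_lt (mul_le_of_le_one_left' ha) hb

lemma mul_lt_of_lt_one_right₀ {a b : Γ₀} (ha : a ≠ 0) (hb : b < 1) : a * b < a := by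
  have := mul_lt_mul_of_pos_left hb (zero_lt_iff.mpr ha)
  rwa [mul_one] at this

lemma mul_lt_of_lt_one_left₀ {a b : Γ₀} (ha : a ≠ 0) (hb : b < 1) : b * a < a := by
  rw [mul_comm]; exact mul_lt_of_lt_one_right₀ ha hb

variable {L : Type*} [Field L] (v : Valuation L Γ₀)

lemma val_two_mul {x : L} (hv2 : v 2 = 1) : v (2 * x) = v x := by
  rw [map_mul, hv2, one_mul]

/-- `v (y' + y) = v y` when `y' - y` is small relative to `y` and `2` is a unit. -/
lemma val_add_of_close {y y' : L} (hv2 : v 2 = 1) (h : v (y' - y) < v y) : v (y' + y) = v y := by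
  have : y' + y = 2 * y + (y' - y) := by ring
  rw [this, v.map_add_eq_of_lt_left (by rw [val_two_mul v hv2]; exact h), val_two_mul v hv2]

/-- `v x' = v x` when `x' - x` is small relative to `x`. -/
lemma val_eq_of_close {x x' : L} (h : v (x' - x) < v x) : v x' = v x := by
  have : x' = x + (x' - x) := by ring
  rw [this, v.map_add_eq_of_lt_left h]

end Fermat.Agent.H4
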