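import Fermat.Agent.H4.FrobRel

/-!
# The Frobenius relation on torsion points (P-S52, WP-C)

`frobenius_relation`: for an integral Weierstrass curve `W` with good reduction at `ℓ` whose
reduction satisfies the Hasse relation, a valuation subring `A` over `ℓ` and a Frobenius
element `σ` at `A`, every torsion point `P` of odd order prime to `ℓ` satisfies
`σ² P - a_ℓ σ P + ℓ P = 0`.
-/

set_option autoImplicit false

namespace Fermat.Agent.H4

open WeierstrassCurve WeierstrassCurve.Affine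

variable {L : Type} [Field L] [Algebra ℚ L] [DecidableEq L] (A : ValuationSubring L)
variable (W : WeierstrassCurve ℤ) {ℓ : ℕ} [Fact ℓ.Prime]

/-- Twice the Frobenius relation, on torsion points of order prime to `ℓ`. -/
theorem two_zsmul_frobenius_relation (hgood : W.IsGoodPrimeFor ℓ)
    (hH : Fermat.Agent.H40.HasseRelation (W.reductionMod ℓ))
    (hA : A.LiesOverPrime ℓ) {σ : L ≃ₐ[ℚ] L} (hσ : A.IsFrobeniusAt σ ℓ)
    {n : ℕ} (hℓn : ¬ ℓ ∣ n) (P : ((W.map (Int.castRingHom ℚ))⁄L).Point) (hP : n • P = 0) :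
    (2 : ℤ) • (σ • σ • P - W.apOfModel ℓ • σ • P + (ℓ : ℤ) • P) = 0 := by
  classical
  have hchar : CharP (IsLocalRing.ResidueField A) ℓ := charP_residueField A Fact.out hA
  letI : Algebra (ZMod ℓ) (IsLocalRing.ResidueField A) := ZMod.algebra _ ℓ
  have hP' : (n : ℤ) • P = 0 := by rw [natCast_zsmul]; exact hP
  have hσP : (n : ℤ) • (σ • P) = 0 := by
    rw [← Point.algEquiv_smul_zsmul, hP']; rfl
  have hσσP : (n : ℤ) • (σ • σ • P) = 0 := by
    rw [← Point.algEquiv_smul_zsmul, hσP]; rfl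
  have hnT : n • ((2 : ℤ) • (σ • σ • P - W.apOfModel ℓ • σ • P + (ℓ : ℤ) • P)) = 0 := by
    rw [← natCast_zsmul, smul_comm (n : ℤ) (2 : ℤ), smul_add, smul_sub,
      smul_comm (n : ℤ) (W.apOfModel ℓ), smul_comm (n : ℤ) (ℓ : ℤ), hP', hσP, hσσP]
    simp
  apply eq_zero_of_redAt_eq_zero A W hA hgood hℓn hnT
  rw [map_zsmul, map_add, map_sub, map_zsmul, map_zsmul, redAt_frobenius A W hA hgood hσ,
    redAt_frobenius A W hA hgood hσ]
  have key := hH (IsLocalRing.ResidueField A) (redAt A W hA hgood P)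
  rw [Fermat.Agent.H40.hasseOp_apply, ZMod.card] at key
  exact key

/-- **The Frobenius relation** `σ² P - a_ℓ σ P + ℓ P = 0` on torsion points of odd order prime
to `ℓ`. -/
theorem frobenius_relation (hgood : W.IsGoodPrimeFor ℓ)
    (hH : Fermat.Agent.H40.HasseRelation (W.reductionMod ℓ))
    (hA : A.LiesOverPrime ℓ) {σ : L ≃ₐ[ℚ] L} (hσ : A.IsFrobeniusAt σ ℓ)
    {n : ℕ} (hn : Odd n) (hℓn : ¬ ℓ ∣ n) (P : ((W.map (Int.castRingHom ℚ))⁄L).Point)
    (hP : n • P = 0) :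
    σ • σ • P - W.apOfModel ℓ • σ • P + (ℓ : ℤ) • P = 0 := by
  have h2 := two_zsmul_frobenius_relation A W hgood hH hA hσ hℓn P hP
  set T := σ • σ • P - W.apOfModel ℓ • σ • P + (ℓ : ℤ) • P with hT
  have hP' : (n : ℤ) • P = 0 := by rw [natCast_zsmul]; exact hP
  have hσP : (n : ℤ) • (σ • P) = 0 := by
    rw [← Point.algEquiv_smul_zsmul, hP']; rfl
  have hσσP : (n : ℤ) • (σ • σ • P) = 0 := by
    rw [← Point.algEquiv_smul_zsmul, hσP]; rfl
  have hnT : (n : ℤ) • T = 0 := by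
    rw [hT, smul_add, smul_sub, smul_comm (n : ℤ) (W.apOfModel ℓ), smul_comm (n : ℤ) (ℓ : ℤ),
      hP', hσP, hσσP]
    simp
  obtain ⟨m, hm⟩ := hn
  have : T = (n : ℤ) • T - (m : ℤ) • ((2 : ℤ) • T) := by
    rw [hm, smul_smul]
    push_cast
    rw [← sub_smul]
    ring_nf
    rw [one_smul]
  rw [this, hnT, h2, smul_zero, sub_zero]

end Fermat.Agent.H4
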