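import Fermat.Agent.H4.RedCast
import Fermat.Agent.H40.Hasse.Defs
import Fermat.Prelude.Def_FLTPrelim_GaloisRep
import Fermat.Prelude.Def_FLTPrelim_Ramification
import Fermat.Prelude.Def_EllipticCurve_FrobeniusTrace
import Fermat.Prelude.Def_FLTPrelim_Modularity

/-!
# Frobenius glue (P-S52, WP-C)

For an integral Weierstrass curve `W` with good reduction at a prime `ℓ`, a valuation subring `A`
of `L` over `ℓ` and a Frobenius element `σ` at `A`: the Hasse relation on the reduction of `W`
modulo `ℓ` implies `σ² P - a_ℓ σ P + ℓ P = 0` for every torsion point `P` of odd order prime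
to `ℓ`.
-/

set_option autoImplicit false

namespace Fermat.Agent.H4

open WeierstrassCurve WeierstrassCurve.Affine

section residue

variable {L : Type*} [Field L] (A : ValuationSubring L)

/-- The residue map of a valuation subring is a residue map. -/
lemma isResidueMap_residue : IsResidueMap A (IsLocalRing.residue A) := by
  intro a
  rw [IsLocalRing.residue_eq_zero_iff]
  exact A.valuation_lt_one_iff a

lemma natCast_residue_eq_zero {ℓ : ℕ} (hA : A.LiesOverPrime ℓ) :
    ((ℓ : ℕ) : IsLocalRing.ResidueField A) = 0 := by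
  have h : IsLocalRing.residue A ((ℓ : ℕ) : A) = 0 := by
    rw [isResidueMap_residue A]
    exact (A.mem_nonunits_iff).mp hA
  simpa using h

lemma charP_residueField {ℓ : ℕ} (hℓ : ℓ.Prime) (hA : A.LiesOverPrime ℓ) :
    CharP (IsLocalRing.ResidueField A) ℓ :=
  (CharP.charP_iff_prime_eq_zero hℓ).mpr (natCast_residue_eq_zero A hA)

/-- An integer prime to `ℓ` is a unit in a valuation subring over `ℓ`. -/
lemma valuation_natCast_eq_one {ℓ : ℕ} (hℓ : ℓ.Prime) (hA : A.LiesOverPrime ℓ) {n : ℕ}
    (hn : ¬ ℓ ∣ n) : A.valuation (n : L) = 1 := by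
  have hle : A.valuation (n : L) ≤ 1 := (A.valuation_le_one_iff _).mpr (natCast_mem A n)
  refine le_antisymm hle (not_lt.mp fun hlt => ?_)
  have hcop : IsCoprime (ℓ : ℤ) (n : ℤ) :=
    Nat.isCoprime_iff_coprime.mpr ((Nat.Prime.coprime_iff_not_dvd hℓ).mpr hn)
  obtain ⟨u, w, huw⟩ := hcop
  have h1 : ((u : L) * (ℓ : L) + (w : L) * (n : L)) = 1 := by
    exact_mod_cast congrArg (Int.cast (R := L)) huw
  have hu : A.valuation (u : L) ≤ 1 := (A.valuation_le_one_iff _).mpr (intCast_mem A u)
  have hw : A.valuation (w : L) ≤ 1 := (A.valuation_le_one_iff _).mpr (intCast_mem A w)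
  have hℓ1 : A.valuation (ℓ : L) < 1 := (A.mem_nonunits_iff).mp hA
  have h2 : A.valuation ((u : L) * (ℓ : L) + (w : L) * (n : L)) < 1 := by
    refine lt_of_le_of_lt (A.valuation.map_add _ _) (max_lt ?_ ?_)
    · rw [map_mul]
      exact lt_of_le_of_lt (mul_le_of_le_one_left' hu) hℓ1
    · rw [map_mul]
      exact lt_of_le_of_lt (mul_le_of_le_one_left' hw) hlt
  rw [h1, map_one] at h2
  exact lt_irrefl _ h2

end residue

section decomposition

variable {K L : Type*} [Field K] [Field L] [Algebra K L] (A : ValuationSubring L)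

/-- An element of the decomposition group preserves the valuation subring. -/
lemma decomposition_mem {σ : L ≃ₐ[K] L} (hσ : σ ∈ A.decompositionSubgroup K) {c : L}
    (hc : c ∈ A) : σ c ∈ A :=
  (A.subMulAction K).smul_mem (⟨σ, hσ⟩ : A.decompositionSubgroup K) hc

lemma decomposition_mem_iff {σ : L ≃ₐ[K] L} (hσ : σ ∈ A.decompositionSubgroup K) {c : L} :
    σ c ∈ A ↔ c ∈ A := by
  refine ⟨fun h => ?_, decomposition_mem A hσ⟩
  have hinv : σ⁻¹ ∈ A.decompositionSubgroup K := inv_mem hσ
  have := decomposition_mem A hinv h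
  rwa [show σ⁻¹ (σ c) = c from σ.symm_apply_apply c] at this

/-- A Frobenius element acts as the `q`-th power on residues. -/
lemma frobenius_residue {σ : L ≃ₐ[K] L} {q : ℕ} (hσ : A.IsFrobeniusAt σ q) (a : A) :
    IsLocalRing.residue A ⟨σ (a : L), decomposition_mem A hσ.mem_decompositionSubgroup a.2⟩ =
      (IsLocalRing.residue A a) ^ q := by
  rw [← hσ.smul_residue_eq, ← IsLocalRing.ResidueField.residue_smul]
  rfl

end decomposition

section main

variable {L : Type} [Field L] [Algebra ℚ L] [DecidableEq L] (A : ValuationSubring L)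
variable (W : WeierstrassCurve ℤ) {ℓ : ℕ} [Fact ℓ.Prime]

omit [DecidableEq L] in
/-- The generic fibre of the integral model. -/
lemma map_subtype_eq :
    (W.map (Int.castRingHom A)).map A.subtype = (W.map (Int.castRingHom ℚ))⁄L := by
  show (W.map (Int.castRingHom A)).map A.subtype =
    (W.map (Int.castRingHom ℚ)).map (algebraMap ℚ L)
  rw [WeierstrassCurve.map_map, WeierstrassCurve.map_map]
  congr 1
  exact RingHom.ext_int _ _

omit [Algebra ℚ L] [DecidableEq L] in
/-- The special fibre of the integral model. -/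
lemma map_residue_eq [Algebra (ZMod ℓ) (IsLocalRing.ResidueField A)] :
    (W.map (Int.castRingHom A)).map (IsLocalRing.residue A) =
      (W.reductionMod ℓ)⁄(IsLocalRing.ResidueField A) := by
  show (W.map (Int.castRingHom A)).map (IsLocalRing.residue A) =
    (W.map (Int.castRingHom (ZMod ℓ))).map (algebraMap (ZMod ℓ) (IsLocalRing.ResidueField A))
  rw [WeierstrassCurve.map_map, WeierstrassCurve.map_map]
  congr 1
  exact RingHom.ext_int _ _

omit [Algebra ℚ L] [DecidableEq L] in
lemma residue_Δ_ne_zero (hA : A.LiesOverPrime ℓ) (hgood : W.IsGoodPrimeFor ℓ) :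
    IsLocalRing.residue A (W.map (Int.castRingHom A)).Δ ≠ 0 := by
  have hchar := charP_residueField A (Fact.out : ℓ.Prime) hA
  rw [WeierstrassCurve.map_Δ]
  intro h
  have h' : ((W.Δ : ℤ) : IsLocalRing.ResidueField A) = 0 := by
    simpa using h
  exact hgood ((CharP.intCast_eq_zero_iff (IsLocalRing.ResidueField A) ℓ W.Δ).mp h')

/-- The reduction homomorphism `E(L) → Ē(k)` of an integral Weierstrass curve at a valuation
subring over a prime of good reduction, `k` the residue field. -/
noncomputable def redAt [DecidableEq (IsLocalRing.ResidueField A)]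
    [Algebra (ZMod ℓ) (IsLocalRing.ResidueField A)]
    (hA : A.LiesOverPrime ℓ) (hgood : W.IsGoodPrimeFor ℓ) :
    ((W.map (Int.castRingHom ℚ))⁄L).Point →+
      ((W.reductionMod ℓ)⁄(IsLocalRing.ResidueField A)).Point :=
  redHomOf (isResidueMap_residue A) (W.map (Int.castRingHom A)) (residue_Δ_ne_zero A W hA hgood)
    (map_subtype_eq A W) (map_residue_eq A W)

variable [DecidableEq (IsLocalRing.ResidueField A)]
  [Algebra (ZMod ℓ) (IsLocalRing.ResidueField A)]
  (hA : A.LiesOverPrime ℓ) (hgood : W.IsGoodPrimeFor ℓ)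

lemma redAt_some_of_mem {x y : L} (h : ((W.map (Int.castRingHom ℚ))⁄L).Nonsingular x y)
    (hx : x ∈ A) :
    ∃ (hy : y ∈ A) (h' : ((W.reductionMod ℓ)⁄(IsLocalRing.ResidueField A)).Nonsingular
        (IsLocalRing.residue A ⟨x, hx⟩) (IsLocalRing.residue A ⟨y, hy⟩)),
      redAt A W hA hgood (Point.some x y h) =
        Point.some (IsLocalRing.residue A ⟨x, hx⟩) (IsLocalRing.residue A ⟨y, hy⟩) h' :=
  redHomOf_some_of_mem _ _ _ _ _ h hx

lemma redAt_some_of_not_mem {x y : L} (h : ((W.map (Int.castRingHom ℚ))⁄L).Nonsingular x y)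
    (hx : x ∉ A) : redAt A W hA hgood (Point.some x y h) = 0 :=
  redHomOf_some_of_not_mem _ _ _ _ _ h hx

/-- The reduction map is injective on `n`-torsion for `n` prime to `ℓ`. -/
lemma eq_zero_of_redAt_eq_zero {n : ℕ} (hn : ¬ ℓ ∣ n)
    {P : ((W.map (Int.castRingHom ℚ))⁄L).Point} (hP : n • P = 0)
    (h : redAt A W hA hgood P = 0) : P = 0 :=
  eq_zero_of_redHomOf_eq_zero _ _ _ _ _ (valuation_natCast_eq_one A Fact.out hA hn) hP h

/-- **Equivariance**: reduction intertwines a Frobenius element with the Frobenius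
endomorphism of the reduced curve. -/
theorem redAt_frobenius {σ : L ≃ₐ[ℚ] L} (hσ : A.IsFrobeniusAt σ ℓ)
    (P : ((W.map (Int.castRingHom ℚ))⁄L).Point) :
    redAt A W hA hgood (σ • P) =
      Fermat.Agent.H40.frobPt (W.reductionMod ℓ) (IsLocalRing.ResidueField A)
        (redAt A W hA hgood P) := by
  have hdec := hσ.mem_decompositionSubgroup
  rcases P with _ | ⟨x, y, h⟩
  · show redAt A W hA hgood 0 = Fermat.Agent.H40.frobPt (W.reductionMod ℓ)
      (IsLocalRing.ResidueField A) (redAt A W hA hgood 0)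
    rw [map_zero, map_zero]
  · have hns : ((W.map (Int.castRingHom ℚ))⁄L).Nonsingular (σ x) (σ y) :=
      ((W.map (Int.castRingHom ℚ)).toAffine.baseChange_nonsingular
        σ.toAlgHom.injective x y).mpr h
    have hσP : σ • (Point.some x y h : ((W.map (Int.castRingHom ℚ))⁄L).Point) =
        Point.some (σ x) (σ y) hns := rfl
    rw [hσP]
    by_cases hx : x ∈ A
    · obtain ⟨hy, h', e⟩ := redAt_some_of_mem A W hA hgood h hx
      have hσx : σ x ∈ A := decomposition_mem A hdec hx
      obtain ⟨hσy, h'', e'⟩ := redAt_some_of_mem A W hA hgood hns hσx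
      rw [e, e']
      obtain ⟨h''', e''⟩ := Fermat.Agent.H40.frobPt_some (W.reductionMod ℓ)
        (IsLocalRing.ResidueField A) h'
      rw [e'']
      apply point_some_eq'
      · rw [ZMod.card]
        exact frobenius_residue A hσ ⟨x, hx⟩
      · rw [ZMod.card]
        exact frobenius_residue A hσ ⟨y, hy⟩
    · have hσx : σ x ∉ A := fun hc => hx ((decomposition_mem_iff A hdec).mp hc)
      rw [redAt_some_of_not_mem A W hA hgood h hx, redAt_some_of_not_mem A W hA hgood hns hσx]
      exact (map_zero (Fermat.Agent.H40.frobPt (W.reductionMod ℓ)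
        (IsLocalRing.ResidueField A))).symm

end main

end Fermat.Agent.H4
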