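import Fermat.Agent.H4.Short
import Fermat.Agent.H4.ValLemmas

/-!
# Diff: two integral points that are "close" differ by an element of the kernel of reduction
-/

set_option autoImplicit false

namespace Fermat.Agent.H4

open WeierstrassCurve WeierstrassCurve.Affine

variable {L : Type*} [Field L] [DecidableEq L]
variable {Γ₀ : Type*} [LinearOrderedCommGroupWithZero Γ₀]

/-- **Diff.** Let `P = (x,y)`, `P' = (x',y')` be integral affine points on a short Weierstrass
curve with `v a₂ ≤ 1`. If `v (x' - x) < v (y' + y)`, or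
`v (y' - y) < v (x'² + x'x + x² + a₂ (x' + x) + a₄)`, then `P' - P` is in the kernel of
reduction. -/
theorem IsShort.inE1_sub {W : WeierstrassCurve.Affine L} (hW : IsShort W)
    (v : Valuation L Γ₀) (h2 : v W.a₂ ≤ 1)
    {x y x' y' : L} (h : W.Nonsingular x y) (h' : W.Nonsingular x' y')
    (hx : v x ≤ 1) (hx' : v x' ≤ 1)
    (hclose : v (x' - x) < v (y' + y) ∨
      v (y' - y) < v (x' ^ 2 + x' * x + x ^ 2 + W.a₂ * (x' + x) + W.a₄)) :
    InE1 v (Point.some x' y' h' - Point.some x y h) := by
  rw [sub_eq_add_neg, hW.neg_some h]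
  by_cases hne : x' = x ∧ y' = - -y
  · rw [hW.add_eq_zero_of h' (hW.nonsingular_neg h) hne.1 hne.2]
    exact inE1_zero v
  obtain ⟨x₃, y₃, ℓ, ν, h₃, hadd, r1, r2, -, r4, -, -, r7, -⟩ :=
    hW.add_rel h' (hW.nonsingular_neg h) hne
  rw [hadd, inE1_some]
  -- the slope is non-integral
  have hℓ : 1 < v ℓ := by
    have e1 : ℓ * (x' - x) = y' + y := by linear_combination r2 - r1
    have e2 : ℓ * (y' - y) = x' ^ 2 + x' * x + x ^ 2 + W.a₂ * (x' + x) + W.a₄ := by
      linear_combination r7
    rcases hclose with hc | hc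
    · have hne0 : v (x' - x) ≠ 0 := by
        intro h0
        have hxx : x' - x = 0 := (v.zero_iff).mp h0
        rw [hxx, mul_zero] at e1
        rw [← e1, hxx, map_zero] at hc
        exact lt_irrefl _ hc
      have : v ℓ * v (x' - x) = v (y' + y) := by rw [← map_mul, e1]
      by_contra hcon
      have hle : v ℓ ≤ 1 := not_lt.mp hcon
      have : v (y' + y) ≤ v (x' - x) := by
        rw [← this]; exact mul_le_of_le_one_left' hle
      exact absurd hc (not_lt.mpr this)
    · have : v ℓ * v (y' - y) = v (x' ^ 2 + x' * x + x ^ 2 + W.a₂ * (x' + x) + W.a₄) := by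
        rw [← map_mul, e2]
      by_contra hcon
      have hle : v ℓ ≤ 1 := not_lt.mp hcon
      have : v (x' ^ 2 + x' * x + x ^ 2 + W.a₂ * (x' + x) + W.a₄) ≤ v (y' - y) := by
        rw [← this]; exact mul_le_of_le_one_left' hle
      exact absurd hc (not_lt.mpr this)
  have hℓ2 : 1 < v (ℓ ^ 2) := by rw [map_pow]; exact one_lt_pow₀ hℓ (by norm_num)
  have e3 : x₃ = ℓ ^ 2 - (W.a₂ + x' + x) := by linear_combination r4
  rw [e3, v.map_sub_eq_of_lt_left]
  · exact hℓ2
  · exact lt_of_le_of_lt (v.map_add_le (v.map_add_le h2 hx') hx) hℓ2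

end Fermat.Agent.H4
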