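import Fermat.Agent.H4.Short
import Fermat.Agent.H26.E1

/-!
# F1: the kernel of reduction has no torsion of order prime to the residue characteristic

Proved by helper26 (`Fermat.Agent.H26.no_torsion_inE1`).
-/

set_option autoImplicit false

namespace Fermat.Agent.H4

open WeierstrassCurve WeierstrassCurve.Affine

variable {L : Type*} [Field L] [DecidableEq L]
variable {Γ₀ : Type*} [LinearOrderedCommGroupWithZero Γ₀]

/-- **F1.** On a short Weierstrass curve with integral coefficients (and `2` a unit), a point in
the kernel of reduction killed by an integer `n` which is a unit for the valuation is `0`. -/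
theorem IsShort.no_torsion_inE1 {W : WeierstrassCurve.Affine L} (hW : IsShort W)
    (v : Valuation L Γ₀) (h2 : v W.a₂ ≤ 1) (h4 : v W.a₄ ≤ 1) (h6 : v W.a₆ ≤ 1) (hv2 : v 2 = 1)
    {n : ℕ} (hn : v (n : L) = 1) {P : W.Point} (hP : InE1 v P) (hnP : n • P = 0) : P = 0 :=
  Fermat.Agent.H26.no_torsion_inE1 hW v h2 h4 h6 hv2 hn hP hnP

end Fermat.Agent.H4
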