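import Fermat.Agent.H4.FrobRelMain
import Fermat.Agent.H53.FrobeniusExists

/-!
# Congruence of traces of Frobenius from an isomorphism of torsion modules (P-S52, final glue)

If `W` and `W'` have good reduction at `ℓ`, their reductions satisfy the Hasse relation, and
there is an injective Galois-equivariant additive map `E[n] → E'[n]` (`n` an odd prime `≠ ℓ`,
`E[n] ≠ 0`), then `n ∣ a_ℓ(W') - a_ℓ(W)`.
-/

set_option autoImplicit false

namespace Fermat.Agent.H4

open WeierstrassCurve WeierstrassCurve.Affine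

/-- Abstract core: two quadratic relations for the same operator on a nonzero `n`-torsion
element force a congruence of the traces. -/
lemma dvd_sub_of_relations {M : Type*} [AddCommGroup M] {n : ℕ} (hn : n.Prime)
    {X Y Z : M} (hY : Y ≠ 0) (hnY : (n : ℤ) • Y = 0) {a a' c : ℤ}
    (h : X - a • Y + c • Z = 0) (h' : X - a' • Y + c • Z = 0) : (n : ℤ) ∣ a' - a := by
  have hsub : (a' - a) • Y = 0 := by
    have : (a' - a) • Y = (X - a • Y + c • Z) - (X - a' • Y + c • Z) := by
      rw [sub_smul]; abel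
    rw [this, h, h', sub_zero]
  by_contra hdvd
  have hcop : IsCoprime (n : ℤ) (a' - a) :=
    (Nat.prime_iff_prime_int.mp hn).coprime_iff_not_dvd.mpr hdvd
  obtain ⟨u, v, huv⟩ := hcop
  apply hY
  have : Y = (u * (n : ℤ) + v * (a' - a)) • Y := by rw [huv, one_smul]
  rw [this, add_smul, mul_smul, mul_smul, hnY, hsub, smul_zero, smul_zero, add_zero]

variable {L : Type} [Field L] [Algebra ℚ L] [DecidableEq L]

/-- **Final glue**, for a given place and Frobenius element. -/
theorem dvd_apOfModel_sub_of_frobenius (W W' : WeierstrassCurve ℤ) {ℓ : ℕ} [Fact ℓ.Prime]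
    (hgood : W.IsGoodPrimeFor ℓ) (hgood' : W'.IsGoodPrimeFor ℓ)
    (hH : Fermat.Agent.H40.HasseRelation (W.reductionMod ℓ))
    (hH' : Fermat.Agent.H40.HasseRelation (W'.reductionMod ℓ))
    (A : ValuationSubring L) (hA : A.LiesOverPrime ℓ) {σ : L ≃ₐ[ℚ] L}
    (hσ : A.IsFrobeniusAt σ ℓ)
    {n : ℕ} (hn : n.Prime) (hn2 : n ≠ 2) (hℓn : ℓ ≠ n)
    (φ : Submodule.torsionBy ℤ ((W.map (Int.castRingHom ℚ))⁄L).Point n →+
      Submodule.torsionBy ℤ ((W'.map (Int.castRingHom ℚ))⁄L).Point n)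
    (hinj : Function.Injective φ)
    (heq : ∀ x, φ (σ • x) = σ • φ x)
    (hne : ∃ x : Submodule.torsionBy ℤ ((W.map (Int.castRingHom ℚ))⁄L).Point n, x ≠ 0) :
    (n : ℤ) ∣ W'.apOfModel ℓ - W.apOfModel ℓ := by
  obtain ⟨x, hx⟩ := hne
  have hodd : Odd n := hn.odd_of_ne_two hn2
  have hℓn' : ¬ ℓ ∣ n := fun h =>
    hℓn ((Nat.prime_dvd_prime_iff_eq (Fact.out : ℓ.Prime) hn).mp h)
  -- torsion in the point groups
  have htor : ∀ y : Submodule.torsionBy ℤ ((W.map (Int.castRingHom ℚ))⁄L).Point n,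
      n • (y : ((W.map (Int.castRingHom ℚ))⁄L).Point) = 0 := by
    intro y
    have := y.2
    rw [Submodule.mem_torsionBy_iff] at this
    rw [← natCast_zsmul]; exact this
  have htor' : ∀ y : Submodule.torsionBy ℤ ((W'.map (Int.castRingHom ℚ))⁄L).Point n,
      n • (y : ((W'.map (Int.castRingHom ℚ))⁄L).Point) = 0 := by
    intro y
    have := y.2
    rw [Submodule.mem_torsionBy_iff] at this
    rw [← natCast_zsmul]; exact this
  -- the relation for `W`, inside the torsion submodule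
  have rel : σ • σ • x - W.apOfModel ℓ • σ • x + (ℓ : ℤ) • x = 0 := by
    apply Subtype.ext
    exact frobenius_relation A W hgood hH hA hσ hodd hℓn' (x : _) (htor x)
  -- the relation for `W'`, at `φ x`
  have rel' : σ • σ • φ x - W'.apOfModel ℓ • σ • φ x + (ℓ : ℤ) • φ x = 0 := by
    apply Subtype.ext
    exact frobenius_relation A W' hgood' hH' hA hσ hodd hℓn' (φ x : _) (htor' (φ x))
  -- transport the first relation by `φ`
  have rel₂ : σ • σ • φ x - W.apOfModel ℓ • σ • φ x + (ℓ : ℤ) • φ x = 0 := by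
    have := congrArg φ rel
    rw [map_zero, map_add, map_sub, map_zsmul, map_zsmul, heq, heq] at this
    exact this
  have hφx : φ x ≠ 0 := fun h => hx (hinj (by rw [h, map_zero]))
  have hσφx : σ • φ x ≠ 0 := by
    intro h
    apply hφx
    have e : σ⁻¹ • (σ • φ x) = φ x := by
      have := mul_smul σ⁻¹ σ (φ x)
      rw [inv_mul_cancel, one_smul] at this
      exact this.symm
    rw [← e, h]
    exact smul_zero (A := Submodule.torsionBy ℤ ((W'.map (Int.castRingHom ℚ))⁄L).Point n) σ⁻¹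
  have hnσ : (n : ℤ) • (σ • φ x) = 0 := by
    apply Subtype.ext
    have := htor' (σ • φ x)
    rw [← natCast_zsmul] at this
    exact this
  exact dvd_sub_of_relations hn hσφx hnσ rel₂ rel'

/-- **Final glue** for `ℚ̄`: an injective Galois-equivariant additive map `E[n] → E'[n]`
forces `a_ℓ(W') ≡ a_ℓ(W) mod n` at every prime `ℓ ≠ n` of good reduction (where the Hasse
relation is known). -/
theorem dvd_apOfModel_sub [DecidableEq (AlgebraicClosure ℚ)]
    (W W' : WeierstrassCurve ℤ) {ℓ : ℕ} [Fact ℓ.Prime]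
    (hgood : W.IsGoodPrimeFor ℓ) (hgood' : W'.IsGoodPrimeFor ℓ)
    (hH : Fermat.Agent.H40.HasseRelation (W.reductionMod ℓ))
    (hH' : Fermat.Agent.H40.HasseRelation (W'.reductionMod ℓ))
    {n : ℕ} (hn : n.Prime) (hn2 : n ≠ 2) (hℓn : ℓ ≠ n)
    (φ : Submodule.torsionBy ℤ ((W.map (Int.castRingHom ℚ))⁄(AlgebraicClosure ℚ)).Point n →+
      Submodule.torsionBy ℤ ((W'.map (Int.castRingHom ℚ))⁄(AlgebraicClosure ℚ)).Point n)
    (hinj : Function.Injective φ)
    (heq : ∀ (σ : AlgebraicClosure ℚ ≃ₐ[ℚ] AlgebraicClosure ℚ) x, φ (σ • x) = σ • φ x)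
    (hne : ∃ x : Submodule.torsionBy ℤ
      ((W.map (Int.castRingHom ℚ))⁄(AlgebraicClosure ℚ)).Point n, x ≠ 0) :
    (n : ℤ) ∣ W'.apOfModel ℓ - W.apOfModel ℓ := by
  obtain ⟨A, σ, hA, hσ⟩ := Fermat.Agent.H53.exists_frobenius (Fact.out : ℓ.Prime)
  exact dvd_apOfModel_sub_of_frobenius W W' hgood hgood' hH hH' A hA hσ hn hn2 hℓn φ hinj
    (heq σ) hne

end Fermat.Agent.H4
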