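import Fermat.Agent.H4.Short

/-!
# The Legendre-type model `y² = x (x - ε) (x - e)`
-/

set_option autoImplicit false

namespace Fermat.Agent.H4

open WeierstrassCurve WeierstrassCurve.Affine

variable {L : Type*} [Field L]

/-- `W` is the curve `y² = x (x - ε) (x - e)`. -/
structure IsLeg (W : WeierstrassCurve.Affine L) (ε e : L) : Prop extends IsShort W where
  a₂ : W.a₂ = -(ε + e)
  a₄ : W.a₄ = ε * e
  a₆ : W.a₆ = 0

namespace IsLeg

variable {W : WeierstrassCurve.Affine L} {ε e : L} (hW : IsLeg W ε e)

include hW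

lemma equation_iff (x y : L) : W.Equation x y ↔ y ^ 2 = x * (x - ε) * (x - e) := by
  rw [hW.toIsShort.equation_iff, hW.a₂, hW.a₄, hW.a₆]
  constructor <;> intro h <;> linear_combination h

lemma equation {x y : L} (h : W.Nonsingular x y) : y ^ 2 = x * (x - ε) * (x - e) :=
  (hW.equation_iff x y).mp h.1

end IsLeg

end Fermat.Agent.H4
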