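import Fermat.Agent.H4.RedHom

/-!
# The reduction homomorphism, with the two fibres given up to equality

`redHomOf hr W hΔ hE hĒ : E.Point →+ Ē.Point` for curves `E` over `L` and `Ē` over `k` which are
(propositionally) equal to the generic fibre `W.map A.subtype` and to the special fibre `W.map r`
of a Weierstrass curve `W` over the valuation subring `A`.
-/

set_option autoImplicit false

namespace Fermat.Agent.H4

open WeierstrassCurve WeierstrassCurve.Affine

variable {L : Type*} [Field L] [DecidableEq L] {k : Type*} [Field k] [DecidableEq k]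
variable {A : ValuationSubring L} {r : A →+* k}
variable (hr : IsResidueMap A r) (W : WeierstrassCurve.Affine A) (hΔ : r W.Δ ≠ 0)
variable {E : WeierstrassCurve.Affine L} {Ē : WeierstrassCurve.Affine k}
variable (hE : W.map A.subtype = E) (hĒ : W.map r = Ē)

/-- The reduction homomorphism `E(L) → Ē(k)`. -/
noncomputable def redHomOf : E.Point →+ Ē.Point := by
  subst hE; subst hĒ
  exact redHom hr W hΔ

lemma redHomOf_some_coe {X Y : A} (h : E.Nonsingular (X : L) (Y : L)) :
    ∃ h' : Ē.Nonsingular (r X) (r Y),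
      redHomOf hr W hΔ hE hĒ (Point.some (X : L) (Y : L) h) = Point.some (r X) (r Y) h' := by
  subst hE; subst hĒ
  exact ⟨_, redHom_some_coe hr W hΔ h⟩

omit [DecidableEq L] [DecidableEq k] in
include hE in
lemma mem_of_nonsingular {x y : L} (h : E.Nonsingular x y) (hx : x ∈ A) : y ∈ A := by
  subst hE
  exact mem_of_equation W h.1 hx

lemma redHomOf_some_of_mem {x y : L} (h : E.Nonsingular x y) (hx : x ∈ A) :
    ∃ (hy : y ∈ A) (h' : Ē.Nonsingular (r ⟨x, hx⟩) (r ⟨y, hy⟩)),
      redHomOf hr W hΔ hE hĒ (Point.some x y h) = Point.some (r ⟨x, hx⟩) (r ⟨y, hy⟩) h' := by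
  have hy : y ∈ A := mem_of_nonsingular W hE h hx
  obtain ⟨h', e⟩ := redHomOf_some_coe hr W hΔ hE hĒ (X := ⟨x, hx⟩) (Y := ⟨y, hy⟩) h
  exact ⟨hy, h', e⟩

lemma redHomOf_some_of_not_mem {x y : L} (h : E.Nonsingular x y) (hx : x ∉ A) :
    redHomOf hr W hΔ hE hĒ (Point.some x y h) = 0 := by
  subst hE; subst hĒ
  exact redHom_some_of_not_mem hr W hΔ h hx

lemma redHomOf_eq_zero_iff (P : E.Point) :
    redHomOf hr W hΔ hE hĒ P = 0 ↔ Fermat.Agent.H26.InKer A.valuation P := by
  subst hE; subst hĒ
  exact redHom_eq_zero_iff hr W hΔ P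

/-- The reduction homomorphism is injective on `m`-torsion when `m` is a unit of `A`. -/
theorem redHomOf_eq_of_torsion {m : ℕ} (hm : A.valuation (m : L) = 1)
    {P Q : E.Point} (hP : m • P = 0) (hQ : m • Q = 0)
    (h : redHomOf hr W hΔ hE hĒ P = redHomOf hr W hΔ hE hĒ Q) : P = Q := by
  subst hE; subst hĒ
  exact redHom_eq_of_torsion hr W hΔ hm hP hQ h

/-- A torsion point of order prime to the residue characteristic with trivial reduction is
trivial. -/
theorem eq_zero_of_redHomOf_eq_zero {m : ℕ} (hm : A.valuation (m : L) = 1)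
    {P : E.Point} (hP : m • P = 0) (h : redHomOf hr W hΔ hE hĒ P = 0) : P = 0 :=
  redHomOf_eq_of_torsion hr W hΔ hE hĒ hm hP (smul_zero m) (by rw [h, map_zero])

end Fermat.Agent.H4
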