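import Fermat.Agent.H26.KernelReduction
import Fermat.Agent.H12.S13Diff

/-!
# The reduction map of an elliptic curve with good reduction

Let `A` be a valuation subring of a field `L`, `r : A →+* k` a ring homomorphism to a field whose
kernel is the maximal ideal of `A` (e.g. the residue map), and `W` a Weierstrass curve over `A`
whose discriminant is a unit.  We define the reduction map
`redFun : (W.map A.subtype).Point → (W.map r).Point`, sending `(x, y)` to `(r x, r y)` if `x ∈ A`
and to `0` otherwise.  In `Fermat.Agent.H4.RedHom` it is shown to be a group homomorphism.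
-/

set_option autoImplicit false

namespace Fermat.Agent.H4

open WeierstrassCurve WeierstrassCurve.Affine

variable {L : Type*} [Field L] {k : Type*} [Field k]
variable (A : ValuationSubring L) (r : A →+* k)

/-- `r : A →+* k` has kernel the maximal ideal of the valuation subring `A`. -/
def IsResidueMap : Prop := ∀ a : A, r a = 0 ↔ A.valuation (a : L) < 1

variable {A r}

namespace IsResidueMap

variable (hr : IsResidueMap A r)

include hr

lemma ne_zero_iff (a : A) : r a ≠ 0 ↔ A.valuation (a : L) = 1 := by
  rw [Ne, hr a, not_lt]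
  constructor
  · intro h
    exact le_antisymm ((A.valuation_le_one_iff _).mpr a.2) h
  · intro h
    exact h.ge

lemma eq_iff (a b : A) : r a = r b ↔ A.valuation ((a : L) - b) < 1 := by
  rw [← sub_eq_zero, ← map_sub, hr]
  rfl

/-- A unit of `A` has an inverse in `A`, which is mapped to the inverse. -/
lemma exists_inv {a : A} (ha : r a ≠ 0) :
    ∃ u : A, (u : L) = (a : L)⁻¹ ∧ r u = (r a)⁻¹ := by
  have hv : A.valuation (a : L) = 1 := (hr.ne_zero_iff a).mp ha
  have hmem : (a : L)⁻¹ ∈ A := by
    rw [← A.valuation_le_one_iff, map_inv₀, hv, inv_one]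
  refine ⟨⟨(a : L)⁻¹, hmem⟩, rfl, ?_⟩
  have ha0 : (a : L) ≠ 0 := by
    intro h0
    rw [h0, map_zero] at hv
    exact zero_ne_one hv
  have hmul : (⟨(a : L)⁻¹, hmem⟩ : A) * a = 1 := by
    apply Subtype.ext
    push_cast
    exact inv_mul_cancel₀ ha0
  have := congrArg r hmul
  rw [map_mul, map_one] at this
  exact eq_inv_of_mul_eq_one_left this

end IsResidueMap

/-- The curve over `L` attached to a Weierstrass curve over `A` has integral coefficients. -/
lemma isIntegralAt_map (W : WeierstrassCurve.Affine A) :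
    Fermat.Agent.H26.IsIntegralAt A.valuation (W.map A.subtype).toAffine :=
  ⟨(A.valuation_le_one_iff _).mpr (W.a₁).2, (A.valuation_le_one_iff _).mpr (W.a₂).2,
    (A.valuation_le_one_iff _).mpr (W.a₃).2, (A.valuation_le_one_iff _).mpr (W.a₄).2,
    (A.valuation_le_one_iff _).mpr (W.a₆).2⟩

/-- Integrality of `y` from integrality of `x`. -/
lemma mem_of_equation (W : WeierstrassCurve.Affine A) {x y : L}
    (h : (W.map A.subtype).toAffine.Equation x y) (hx : x ∈ A) : y ∈ A := by
  rw [← A.valuation_le_one_iff]
  by_contra hcon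
  have hy : 1 < A.valuation y := not_le.mp hcon
  set v := A.valuation with hv
  have hx1 : v x ≤ 1 := (A.valuation_le_one_iff _).mpr hx
  have h1 : v (W.a₁ : L) ≤ 1 := (A.valuation_le_one_iff _).mpr (W.a₁).2
  have h2 : v (W.a₂ : L) ≤ 1 := (A.valuation_le_one_iff _).mpr (W.a₂).2
  have h3 : v (W.a₃ : L) ≤ 1 := (A.valuation_le_one_iff _).mpr (W.a₃).2
  have h4 : v (W.a₄ : L) ≤ 1 := (A.valuation_le_one_iff _).mpr (W.a₄).2
  have h6 : v (W.a₆ : L) ≤ 1 := (A.valuation_le_one_iff _).mpr (W.a₆).2
  have e := (equation_iff _ _).mp h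
  simp only [WeierstrassCurve.map_a₁, WeierstrassCurve.map_a₂, WeierstrassCurve.map_a₃,
    WeierstrassCurve.map_a₄, WeierstrassCurve.map_a₆, ValuationSubring.subtype_apply] at e
  have hy0 : 0 < v y := lt_trans zero_lt_one hy
  have hyy : v y < v (y ^ 2) := by
    rw [map_pow, sq]
    calc v y = 1 * v y := (one_mul _).symm
      _ < v y * v y := mul_lt_mul_of_pos_right hy hy0
  have e2 : y ^ 2 = (x ^ 3 + W.a₂ * x ^ 2 + W.a₄ * x + W.a₆) - (W.a₁ * x + W.a₃) * y := by
    linear_combination e
  have hr1 : v (x ^ 3 + W.a₂ * x ^ 2 + W.a₄ * x + W.a₆) ≤ 1 := by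
    refine v.map_add_le (v.map_add_le (v.map_add_le ?_ ?_) ?_) h6
    · rw [map_pow]; exact pow_le_one₀ zero_le hx1
    · rw [map_mul, map_pow]; exact mul_le_one' h2 (pow_le_one₀ zero_le hx1)
    · rw [map_mul]; exact mul_le_one' h4 hx1
  have hr2 : v ((W.a₁ * x + W.a₃) * y) ≤ v y := by
    rw [map_mul]
    refine mul_le_of_le_one_left' ?_
    refine v.map_add_le ?_ h3
    rw [map_mul]; exact mul_le_one' h1 hx1
  have : v (y ^ 2) ≤ v y := by
    rw [e2]
    exact v.map_sub_le (hr1.trans hy.le) hr2
  exact absurd hyy (not_lt.mpr this)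

/-- An affine point with integral coordinates comes from a solution over `A`. -/
lemma equation_of_mem (W : WeierstrassCurve.Affine A) {X Y : A}
    (h : (W.map A.subtype).toAffine.Equation (X : L) (Y : L)) : W.Equation X Y :=
  (W.map_equation (f := A.subtype) Subtype.val_injective X Y).mp h

/-- The reduction of an integral solution is a nonsingular point of the reduced curve. -/
lemma nonsingular_red (W : WeierstrassCurve.Affine A) (hΔ : r W.Δ ≠ 0) {X Y : A}
    (h : W.Equation X Y) : (W.map r).toAffine.Nonsingular (r X) (r Y) := by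
  have hΔ' : (W.map r).toAffine.Δ ≠ 0 := by
    rw [WeierstrassCurve.map_Δ]; exact hΔ
  exact ((W.map r).toAffine.equation_iff_nonsingular_of_Δ_ne_zero hΔ').mp (h.map r)

open Classical in
/-- The reduction map on points. -/
noncomputable def redFun (W : WeierstrassCurve.Affine A) (hΔ : r W.Δ ≠ 0) :
    (W.map A.subtype).toAffine.Point → (W.map r).toAffine.Point
  | .zero => 0
  | .some x y h =>
    if hx : x ∈ A then
      Point.some (r ⟨x, hx⟩) (r ⟨y, mem_of_equation W h.1 hx⟩)
        (nonsingular_red W hΔ (X := ⟨x, hx⟩) (Y := ⟨y, mem_of_equation W h.1 hx⟩)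
          (equation_of_mem W h.1))
    else 0

variable (W : WeierstrassCurve.Affine A) (hΔ : r W.Δ ≠ 0)

@[simp] lemma redFun_zero : redFun W hΔ 0 = 0 := rfl

lemma redFun_some_of_not_mem {x y : L} (h : (W.map A.subtype).toAffine.Nonsingular x y)
    (hx : x ∉ A) : redFun W hΔ (Point.some x y h) = 0 := by
  simp only [redFun, dif_neg hx]

lemma redFun_some_of_mem {x y : L} (h : (W.map A.subtype).toAffine.Nonsingular x y)
    (hx : x ∈ A) :
    redFun W hΔ (Point.some x y h) =
      Point.some (r ⟨x, hx⟩) (r ⟨y, mem_of_equation W h.1 hx⟩)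
        (nonsingular_red W hΔ (X := ⟨x, hx⟩) (Y := ⟨y, mem_of_equation W h.1 hx⟩)
          (equation_of_mem W h.1)) := by
  simp only [redFun, dif_pos hx]

/-- Version with chosen lifts of the coordinates. -/
lemma redFun_some_coe {X Y : A} (h : (W.map A.subtype).toAffine.Nonsingular (X : L) (Y : L)) :
    redFun W hΔ (Point.some (X : L) (Y : L) h) =
      Point.some (r X) (r Y) (nonsingular_red W hΔ (equation_of_mem W h.1)) := by
  rw [redFun_some_of_mem W hΔ h X.2]

/-- The kernel of the reduction map. -/
lemma redFun_eq_zero_iff (P : (W.map A.subtype).toAffine.Point) :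
    redFun W hΔ P = 0 ↔ Fermat.Agent.H26.InKer A.valuation P := by
  rcases P with _ | ⟨x, y, h⟩
  · exact ⟨fun _ => trivial, fun _ => rfl⟩
  · by_cases hx : x ∈ A
    · rw [redFun_some_of_mem W hΔ h hx]
      constructor
      · intro h0
        exact absurd h0 (Point.some_ne_zero _)
      · intro hk
        have : 1 < A.valuation x := hk
        exact absurd ((A.valuation_le_one_iff _).mpr hx) (not_le.mpr this)
    · rw [redFun_some_of_not_mem W hΔ h hx]
      constructor
      · intro _
        show 1 < A.valuation x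
        rw [← not_le, A.valuation_le_one_iff]
        exact hx
      · intro _
        rfl

end Fermat.Agent.H4
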