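import Fermat.Agent.H4.RedSlope

/-!
# The reduction map is a group homomorphism

`redHom : (W.map A.subtype).Point →+ (W.map r).Point` for a Weierstrass curve `W` over a valuation
subring `A` with good reduction; its kernel is the kernel of reduction `Fermat.Agent.H26.kerRed`,
and it is injective on `m`-torsion for every `m` which is a unit of `A`.
-/

set_option autoImplicit false

namespace Fermat.Agent.H4

open WeierstrassCurve WeierstrassCurve.Affine

variable {L : Type*} [Field L] [DecidableEq L] {k : Type*} [Field k] [DecidableEq k]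
variable {A : ValuationSubring L} {r : A →+* k}

omit [DecidableEq L] in
/-- Equality of affine points from equality of coordinates. -/
lemma point_some_eq {W' : WeierstrassCurve.Affine L} {x y x' y' : L} (h : W'.Nonsingular x y)
    (h' : W'.Nonsingular x' y') (hx : x = x') (hy : y = y') :
    Point.some x y h = Point.some x' y' h' := by
  subst hx; subst hy; rfl

omit [DecidableEq k] in
/-- Equality of affine points from equality of coordinates (over the residue field). -/
lemma point_some_eq' {W' : WeierstrassCurve.Affine k} {x y x' y' : k} (h : W'.Nonsingular x y)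
    (h' : W'.Nonsingular x' y') (hx : x = x') (hy : y = y') :
    Point.some x y h = Point.some x' y' h' := by
  subst hx; subst hy; rfl

variable (hr : IsResidueMap A r) (W : WeierstrassCurve.Affine A) (hΔ : r W.Δ ≠ 0)

omit [DecidableEq L] [DecidableEq k] in
lemma coe_negY (X Y : A) :
    ((W.negY X Y : A) : L) = (W.map A.subtype).toAffine.negY (X : L) (Y : L) := by
  have := map_negY (W' := W) A.subtype X Y
  simp only [ValuationSubring.subtype_apply] at this
  exact this.symm

omit [DecidableEq L] [DecidableEq k] in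
lemma coe_addX (X₁ X₂ ℓ : A) :
    ((W.addX X₁ X₂ ℓ : A) : L) = (W.map A.subtype).toAffine.addX (X₁ : L) (X₂ : L) (ℓ : L) := by
  have := map_addX (W' := W) A.subtype X₁ X₂ ℓ
  simp only [ValuationSubring.subtype_apply] at this
  exact this.symm

omit [DecidableEq L] [DecidableEq k] in
lemma coe_addY (X₁ X₂ Y₁ ℓ : A) :
    ((W.addY X₁ X₂ Y₁ ℓ : A) : L) =
      (W.map A.subtype).toAffine.addY (X₁ : L) (X₂ : L) (Y₁ : L) (ℓ : L) := by
  have := map_addY (W' := W) A.subtype X₁ Y₁ X₂ ℓ
  simp only [ValuationSubring.subtype_apply] at this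
  exact this.symm

include hr in
/-- **Generic case**: two integral points whose reductions are not opposite. -/
theorem redFun_add_of_ne {X₁ Y₁ X₂ Y₂ : A}
    (h₁ : (W.map A.subtype).toAffine.Nonsingular (X₁ : L) (Y₁ : L))
    (h₂ : (W.map A.subtype).toAffine.Nonsingular (X₂ : L) (Y₂ : L))
    (hne : ¬ (r X₁ = r X₂ ∧ r Y₁ = (W.map r).toAffine.negY (r X₂) (r Y₂))) :
    (∃ (X₃ Y₃ : A) (h₃ : (W.map A.subtype).toAffine.Nonsingular (X₃ : L) (Y₃ : L)),
      Point.some _ _ h₁ + Point.some _ _ h₂ = Point.some _ _ h₃) ∧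
    redFun W hΔ (Point.some _ _ h₁ + Point.some _ _ h₂) =
      redFun W hΔ (Point.some _ _ h₁) + redFun W hΔ (Point.some _ _ h₂) := by
  obtain ⟨ℓ, hℓ, hrℓ⟩ := exists_slope hr W (equation_of_mem W h₁.1) (equation_of_mem W h₂.1) hne
  have hneL : ¬ ((X₁ : L) = (X₂ : L) ∧
      (Y₁ : L) = (W.map A.subtype).toAffine.negY (X₂ : L) (Y₂ : L)) := by
    rintro ⟨hx, hy⟩
    apply hne
    refine ⟨congrArg r (Subtype.ext hx), ?_⟩
    have : Y₁ = W.negY X₂ Y₂ := by
      apply Subtype.ext
      rw [coe_negY]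
      exact hy
    rw [this, map_negY]
  have hsum := Point.add_some hneL (h₁ := h₁) (h₂ := h₂)
  have hX : (W.map A.subtype).toAffine.addX (X₁ : L) (X₂ : L)
      ((W.map A.subtype).toAffine.slope (X₁ : L) (X₂ : L) (Y₁ : L) (Y₂ : L)) =
      ((W.addX X₁ X₂ ℓ : A) : L) := by
    rw [coe_addX, hℓ]
  have hY : (W.map A.subtype).toAffine.addY (X₁ : L) (X₂ : L) (Y₁ : L)
      ((W.map A.subtype).toAffine.slope (X₁ : L) (X₂ : L) (Y₁ : L) (Y₂ : L)) =
      ((W.addY X₁ X₂ Y₁ ℓ : A) : L) := by
    rw [coe_addY, hℓ]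
  have h₃ : (W.map A.subtype).toAffine.Nonsingular ((W.addX X₁ X₂ ℓ : A) : L)
      ((W.addY X₁ X₂ Y₁ ℓ : A) : L) := by
    rw [← hX, ← hY]
    exact nonsingular_add h₁ h₂ hneL
  have hsum' : Point.some _ _ h₁ + Point.some _ _ h₂ = Point.some _ _ h₃ := by
    rw [hsum]
    exact point_some_eq _ _ hX hY
  refine ⟨⟨_, _, h₃, hsum'⟩, ?_⟩
  rw [hsum', redFun_some_coe W hΔ h₃, redFun_some_coe W hΔ h₁, redFun_some_coe W hΔ h₂,
    Point.add_some hne]
  apply point_some_eq'
  · rw [← map_addX, hrℓ]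
  · rw [← map_addY, hrℓ]

omit [DecidableEq k] in
include hr hΔ in
/-- **Opposite reductions**: the sum lies in the kernel of reduction. -/
theorem inKer_add_of_eq {X₁ Y₁ X₂ Y₂ : A}
    (h₁ : (W.map A.subtype).toAffine.Nonsingular (X₁ : L) (Y₁ : L))
    (h₂ : (W.map A.subtype).toAffine.Nonsingular (X₂ : L) (Y₂ : L))
    (hx : r X₁ = r X₂) (hy : r Y₁ = (W.map r).toAffine.negY (r X₂) (r Y₂)) :
    Fermat.Agent.H26.InKer A.valuation (Point.some _ _ h₁ + Point.some _ _ h₂) := by
  set Y' : A := W.negY X₂ Y₂ with hY'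
  have hrY' : r Y' = (W.map r).toAffine.negY (r X₂) (r Y₂) := by rw [hY', map_negY]
  have hyy : r Y₁ = r Y' := by rw [hrY', hy]
  have hE₂' : W.Equation X₂ Y' := (equation_neg X₂ Y₂).mpr (equation_of_mem W h₂.1)
  have hns := nonsingular_red W hΔ hE₂'
  have h₂' : (W.map A.subtype).toAffine.Nonsingular (X₂ : L) (Y' : L) := by
    rw [hY', coe_negY]
    exact (nonsingular_neg _ _).mpr h₂
  have hneg : -Point.some _ _ h₂ = Point.some _ _ h₂' := by
    rw [Point.neg_some]
    exact point_some_eq _ _ rfl (coe_negY W X₂ Y₂).symm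
  have hsub : Point.some _ _ h₁ + Point.some _ _ h₂ = Point.some _ _ h₁ - Point.some _ _ h₂' := by
    rw [← hneg, sub_neg_eq_add]
  rw [hsub]
  have hvx : A.valuation ((X₁ : L) - X₂) < 1 := (hr.eq_iff X₁ X₂).mp hx
  have hvy : A.valuation ((Y₁ : L) - Y') < 1 := (hr.eq_iff Y₁ Y').mp hyy
  refine Fermat.Agent.H12.inKer_sub_of_close A.valuation (isIntegralAt_map W) h₂' h₁
    ((A.valuation_le_one_iff _).mpr X₂.2) ((A.valuation_le_one_iff _).mpr X₁.2) ?_
  rcases ((nonsingular_iff' _ _).mp hns).2 with hX | hYn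
  · -- the `x`-derivative is a unit
    right
    set S : A := X₁ ^ 2 + X₁ * X₂ + X₂ ^ 2 + W.a₂ * (X₁ + X₂) + W.a₄ - W.a₁ * Y' with hS
    have hrS : r S ≠ 0 := by
      intro h0
      apply hX
      rw [hS] at h0
      simp only [map_sub, map_add, map_mul, map_pow, hx] at h0
      simp only [WeierstrassCurve.map_a₁, WeierstrassCurve.map_a₂, WeierstrassCurve.map_a₄]
      linear_combination -h0
    have hvS : A.valuation (S : L) = 1 := (hr.ne_zero_iff S).mp hrS
    have hScoe : (S : L) = (X₁ : L) ^ 2 + X₁ * X₂ + (X₂ : L) ^ 2 +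
        (W.map A.subtype).toAffine.a₂ * ((X₁ : L) + X₂) + (W.map A.subtype).toAffine.a₄ -
        (W.map A.subtype).toAffine.a₁ * (Y' : L) := by
      rw [hS]
      simp only [WeierstrassCurve.map_a₁, WeierstrassCurve.map_a₂, WeierstrassCurve.map_a₄,
        ValuationSubring.subtype_apply]
      push_cast
      rfl
    rw [← hScoe, hvS]
    exact hvy
  · -- the `y`-derivative is a unit
    left
    set T : A := Y₁ + Y' + W.a₁ * X₂ + W.a₃ with hT
    have hrT : r T ≠ 0 := by
      intro h0
      apply hYn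
      rw [hT] at h0
      simp only [map_add, map_mul, hyy] at h0
      simp only [WeierstrassCurve.map_a₁, WeierstrassCurve.map_a₃]
      linear_combination h0
    have hvT : A.valuation (T : L) = 1 := (hr.ne_zero_iff T).mp hrT
    have hTcoe : (T : L) = (Y₁ : L) + Y' + (W.map A.subtype).toAffine.a₁ * (X₂ : L) +
        (W.map A.subtype).toAffine.a₃ := by
      rw [hT]
      simp only [WeierstrassCurve.map_a₁, WeierstrassCurve.map_a₃,
        ValuationSubring.subtype_apply]
      push_cast
      rfl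
    rw [← hTcoe, hvT]
    exact hvx

include hr in
/-- **One point in the kernel**: adding a point of the kernel does not change the reduction. -/
theorem redFun_add_of_inKer {P Q : (W.map A.subtype).toAffine.Point}
    (hP : Fermat.Agent.H26.InKer A.valuation P) :
    redFun W hΔ (P + Q) = redFun W hΔ Q := by
  have hint := isIntegralAt_map W
  by_cases hQ : Fermat.Agent.H26.InKer A.valuation Q
  · have hPQ : Fermat.Agent.H26.InKer A.valuation (P + Q) :=
      (Fermat.Agent.H26.kerRed hint).add_mem hP hQ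
    rw [(redFun_eq_zero_iff W hΔ _).mpr hPQ, (redFun_eq_zero_iff W hΔ _).mpr hQ]
  · have hR : ¬ Fermat.Agent.H26.InKer A.valuation (P + Q) := by
      intro hR
      apply hQ
      have := (Fermat.Agent.H26.kerRed hint).sub_mem hR hP
      rwa [add_sub_cancel_left] at this
    rcases Q with _ | ⟨x₂, y₂, h₂⟩
    · exact absurd trivial hQ
    generalize hRdef : P + Point.some x₂ y₂ h₂ = R at hR ⊢
    rcases R with _ | ⟨x₃, y₃, h₃⟩
    · exact absurd trivial hR
    have hx₂ : x₂ ∈ A := by
      rw [← A.valuation_le_one_iff]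
      exact not_lt.mp hQ
    have hx₃ : x₃ ∈ A := by
      rw [← A.valuation_le_one_iff]
      exact not_lt.mp hR
    have hy₂ : y₂ ∈ A := mem_of_equation W h₂.1 hx₂
    have hy₃ : y₃ ∈ A := mem_of_equation W h₃.1 hx₃
    lift x₂ to A using hx₂
    lift y₂ to A using hy₂
    lift x₃ to A using hx₃
    lift y₃ to A using hy₃
    rw [redFun_some_coe W hΔ h₃, redFun_some_coe W hΔ h₂]
    by_contra hcon
    have hne : ¬ (r x₃ = r x₂ ∧ r y₃ = r y₂) := by
      rintro ⟨e1, e2⟩
      exact hcon (point_some_eq' _ _ e1 e2)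
    -- `-Q`
    have h₂' : (W.map A.subtype).toAffine.Nonsingular (x₂ : L) ((W.negY x₂ y₂ : A) : L) := by
      rw [coe_negY]
      exact (nonsingular_neg _ _).mpr h₂
    have hneg : -Point.some _ _ h₂ = Point.some _ _ h₂' := by
      rw [Point.neg_some]
      exact point_some_eq _ _ rfl (coe_negY W x₂ y₂).symm
    have hne' : ¬ (r x₃ = r x₂ ∧
        r y₃ = (W.map r).toAffine.negY (r x₂) (r (W.negY x₂ y₂))) := by
      rw [← map_negY, negY_negY]
      exact hne
    obtain ⟨⟨X₄, Y₄, h₄, h4eq⟩, -⟩ := redFun_add_of_ne hr W hΔ h₃ h₂' hne'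
    have hPeq : P = Point.some _ _ h₄ := by
      rw [← h4eq, ← hneg, ← hRdef]
      abel
    rw [hPeq] at hP
    have : 1 < A.valuation (X₄ : L) := hP
    exact absurd ((A.valuation_le_one_iff _).mpr X₄.2) (not_le.mpr this)

include hr in
/-- The reduction map is additive. -/
theorem redFun_add (P Q : (W.map A.subtype).toAffine.Point) :
    redFun W hΔ (P + Q) = redFun W hΔ P + redFun W hΔ Q := by
  by_cases hP : Fermat.Agent.H26.InKer A.valuation P
  · rw [redFun_add_of_inKer hr W hΔ hP, (redFun_eq_zero_iff W hΔ _).mpr hP, zero_add]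
  by_cases hQ : Fermat.Agent.H26.InKer A.valuation Q
  · rw [add_comm, redFun_add_of_inKer hr W hΔ hQ, (redFun_eq_zero_iff W hΔ _).mpr hQ, add_zero]
  rcases P with _ | ⟨x₁, y₁, h₁⟩
  · exact absurd trivial hP
  rcases Q with _ | ⟨x₂, y₂, h₂⟩
  · exact absurd trivial hQ
  have hx₁ : x₁ ∈ A := by
    rw [← A.valuation_le_one_iff]
    exact not_lt.mp hP
  have hx₂ : x₂ ∈ A := by
    rw [← A.valuation_le_one_iff]
    exact not_lt.mp hQ
  have hy₁ : y₁ ∈ A := mem_of_equation W h₁.1 hx₁
  have hy₂ : y₂ ∈ A := mem_of_equation W h₂.1 hx₂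
  lift x₁ to A using hx₁
  lift y₁ to A using hy₁
  lift x₂ to A using hx₂
  lift y₂ to A using hy₂
  by_cases hne : r x₁ = r x₂ ∧ r y₁ = (W.map r).toAffine.negY (r x₂) (r y₂)
  · have hK := inKer_add_of_eq hr W hΔ h₁ h₂ hne.1 hne.2
    rw [(redFun_eq_zero_iff W hΔ _).mpr hK, redFun_some_coe W hΔ h₁, redFun_some_coe W hΔ h₂,
      Point.add_of_Y_eq hne.1 hne.2]
  · exact (redFun_add_of_ne hr W hΔ h₁ h₂ hne).2

/-- **The reduction homomorphism.** -/
noncomputable def redHom : (W.map A.subtype).toAffine.Point →+ (W.map r).toAffine.Point where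
  toFun := redFun W hΔ
  map_zero' := rfl
  map_add' := redFun_add hr W hΔ

@[simp] lemma redHom_apply (P : (W.map A.subtype).toAffine.Point) :
    redHom hr W hΔ P = redFun W hΔ P := rfl

lemma redHom_some_coe {X Y : A} (h : (W.map A.subtype).toAffine.Nonsingular (X : L) (Y : L)) :
    redHom hr W hΔ (Point.some (X : L) (Y : L) h) =
      Point.some (r X) (r Y) (nonsingular_red W hΔ (equation_of_mem W h.1)) :=
  redFun_some_coe W hΔ h

lemma redHom_some_of_not_mem {x y : L} (h : (W.map A.subtype).toAffine.Nonsingular x y)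
    (hx : x ∉ A) : redHom hr W hΔ (Point.some x y h) = 0 :=
  redFun_some_of_not_mem W hΔ h hx

/-- The kernel of the reduction homomorphism is the kernel of reduction. -/
lemma redHom_eq_zero_iff (P : (W.map A.subtype).toAffine.Point) :
    redHom hr W hΔ P = 0 ↔ Fermat.Agent.H26.InKer A.valuation P :=
  redFun_eq_zero_iff W hΔ P

/-- The reduction homomorphism is injective on `m`-torsion when `m` is a unit of `A`. -/
theorem redHom_eq_of_torsion {m : ℕ} (hm : A.valuation (m : L) = 1)
    {P Q : (W.map A.subtype).toAffine.Point} (hP : m • P = 0) (hQ : m • Q = 0)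
    (h : redHom hr W hΔ P = redHom hr W hΔ Q) : P = Q := by
  have h0 : redHom hr W hΔ (P - Q) = 0 := by rw [map_sub, h, sub_self]
  have hK := (redHom_eq_zero_iff hr W hΔ _).mp h0
  have hm0 : m • (P - Q) = 0 := by rw [smul_sub, hP, hQ, sub_zero]
  exact sub_eq_zero.mp (Fermat.Agent.H26.eq_zero_of_nsmul_eq_zero (isIntegralAt_map W) hK hm hm0)

end Fermat.Agent.H4
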