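import Fermat.Agent.H4.RedDef

/-!
# Reduction of the slope

If two integral points do not reduce to opposite points, the slope of the line through them is
integral and reduces to the slope of the line through the reduced points.
-/

set_option autoImplicit false

namespace Fermat.Agent.H4

open WeierstrassCurve WeierstrassCurve.Affine

variable {L : Type*} [Field L] [DecidableEq L] {k : Type*} [Field k] [DecidableEq k]
variable {A : ValuationSubring L} {r : A →+* k}

/-- The basic identity relating the chord slope and the "tangent-like" expression. -/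
lemma chord_identity {R : Type*} [CommRing R] (W : WeierstrassCurve.Affine R) {x₁ y₁ x₂ y₂ : R}
    (h₁ : W.Equation x₁ y₁) (h₂ : W.Equation x₂ y₂) :
    (y₁ - y₂) * (y₁ - W.negY x₂ y₂) =
      (x₁ - x₂) * (x₁ ^ 2 + x₁ * x₂ + x₂ ^ 2 + W.a₂ * (x₁ + x₂) + W.a₄ - W.a₁ * y₁) := by
  have e₁ := (equation_iff _ _).mp h₁
  have e₂ := (equation_iff _ _).mp h₂
  simp only [negY]
  linear_combination e₁ - e₂

theorem exists_slope (hr : IsResidueMap A r) (W : WeierstrassCurve.Affine A)
    {X₁ Y₁ X₂ Y₂ : A} (h₁ : W.Equation X₁ Y₁) (h₂ : W.Equation X₂ Y₂)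
    (hne : ¬ (r X₁ = r X₂ ∧ r Y₁ = (W.map r).toAffine.negY (r X₂) (r Y₂))) :
    ∃ ℓ : A, (ℓ : L) = (W.map A.subtype).toAffine.slope (X₁ : L) (X₂ : L) (Y₁ : L) (Y₂ : L) ∧
      r ℓ = (W.map r).toAffine.slope (r X₁) (r X₂) (r Y₁) (r Y₂) := by
  by_cases hx : r X₁ = r X₂
  · -- tangent-like case
    have hy : r Y₁ ≠ (W.map r).toAffine.negY (r X₂) (r Y₂) := fun h => hne ⟨hx, h⟩
    set D : A := Y₁ - W.negY X₂ Y₂ with hD
    set N : A := X₁ ^ 2 + X₁ * X₂ + X₂ ^ 2 + W.a₂ * (X₁ + X₂) + W.a₄ - W.a₁ * Y₁ with hN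
    have hrD : r D = r Y₁ - (W.map r).toAffine.negY (r X₂) (r Y₂) := by
      rw [hD, map_sub, map_negY]
    have hrD0 : r D ≠ 0 := by
      rw [hrD]; exact sub_ne_zero.mpr hy
    obtain ⟨u, hu, hru⟩ := hr.exists_inv hrD0
    have hDL : (D : L) ≠ 0 := by
      intro h0
      have : D = 0 := Subtype.ext h0
      rw [this, map_zero] at hrD0
      exact hrD0 rfl
    have hDcoe : (D : L) = (Y₁ : L) - (W.map A.subtype).toAffine.negY (X₂ : L) (Y₂ : L) := by
      rw [hD]
      have := map_negY (W' := W) A.subtype X₂ Y₂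
      simp only [ValuationSubring.subtype_apply] at this
      rw [this]
      push_cast
      rfl
    have hNcoe : (N : L) = (X₁ : L) ^ 2 + X₁ * X₂ + (X₂ : L) ^ 2 +
        (W.map A.subtype).toAffine.a₂ * ((X₁ : L) + X₂) + (W.map A.subtype).toAffine.a₄ -
        (W.map A.subtype).toAffine.a₁ * (Y₁ : L) := by
      rw [hN]
      simp only [WeierstrassCurve.map_a₁, WeierstrassCurve.map_a₂, WeierstrassCurve.map_a₄,
        ValuationSubring.subtype_apply]
      push_cast
      rfl
    have E₁ : (W.map A.subtype).toAffine.Equation (X₁ : L) (Y₁ : L) := h₁.map A.subtype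
    have E₂ : (W.map A.subtype).toAffine.Equation (X₂ : L) (Y₂ : L) := h₂.map A.subtype
    have R₁ : (W.map r).toAffine.Equation (r X₁) (r Y₁) := h₁.map r
    have R₂ : (W.map r).toAffine.Equation (r X₂) (r Y₂) := h₂.map r
    refine ⟨N * u, ?_, ?_⟩
    · -- the slope over `L`
      have hcoe : ((N * u : A) : L) = (N : L) / (D : L) := by
        push_cast
        rw [hu, div_eq_mul_inv]
      rw [hcoe]
      by_cases hxL : (X₁ : L) = (X₂ : L)
      · have hyL : (Y₁ : L) ≠ (W.map A.subtype).toAffine.negY (X₂ : L) (Y₂ : L) := by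
          intro h
          apply hDL
          rw [hDcoe, h, sub_self]
        have hYY : (Y₁ : L) = (Y₂ : L) := Y_eq_of_Y_ne E₁ E₂ hxL hyL
        rw [slope_of_Y_ne hxL hyL, hNcoe, hDcoe, ← hxL, ← hYY]
        congr 1
        ring
      · rw [slope_of_X_ne hxL, hNcoe, hDcoe]
        have hxs : (X₁ : L) - X₂ ≠ 0 := sub_ne_zero.mpr hxL
        have hDs : (Y₁ : L) - (W.map A.subtype).toAffine.negY (X₂ : L) (Y₂ : L) ≠ 0 := by
          rw [← hDcoe]; exact hDL
        rw [div_eq_div_iff hDs hxs]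
        have := chord_identity (W.map A.subtype).toAffine E₁ E₂
        linear_combination -this
    · -- the slope of the reduction
      have hYY : r Y₁ = r Y₂ := Y_eq_of_Y_ne R₁ R₂ hx hy
      rw [map_mul, hru, slope_of_Y_ne hx hy, ← div_eq_mul_inv, hrD, ← hx, ← hYY]
      congr 1
      rw [hN]
      simp only [map_sub, map_add, map_mul, map_pow, WeierstrassCurve.map_a₁,
        WeierstrassCurve.map_a₂, WeierstrassCurve.map_a₄, ← hx]
      ring
  · -- chord case
    have hX0 : r (X₁ - X₂) ≠ 0 := by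
      rw [map_sub]; exact sub_ne_zero.mpr hx
    obtain ⟨u, hu, hru⟩ := hr.exists_inv hX0
    have hxL : (X₁ : L) ≠ (X₂ : L) := by
      intro h
      exact hx (congrArg r (Subtype.ext h))
    refine ⟨(Y₁ - Y₂) * u, ?_, ?_⟩
    · rw [slope_of_X_ne hxL]
      push_cast
      rw [hu, div_eq_mul_inv]
      push_cast
      rfl
    · rw [slope_of_X_ne hx, map_mul, hru, map_sub, map_sub, div_eq_mul_inv]

end Fermat.Agent.H4
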