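import Fermat.Agent.H4.E1
import Fermat.Agent.H4.Diff
import Fermat.Agent.H4.Node
import Fermat.Agent.H4.ValLemmas

/-!
# Torsion points of `y² = x (x - ε) (x - e)` are fixed by "inertia-like" automorphisms
-/

set_option autoImplicit false

namespace Fermat.Agent.H4

open WeierstrassCurve WeierstrassCurve.Affine

variable {L : Type*} [Field L]
variable {Γ₀ : Type*} [LinearOrderedCommGroupWithZero Γ₀]

/-- integrality of `y` from integrality of `x` and of the coefficients -/
lemma IsShort.val_y_le_one {W : WeierstrassCurve.Affine L} (hW : IsShort W) (v : Valuation L Γ₀)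
    (h2 : v W.a₂ ≤ 1) (h4 : v W.a₄ ≤ 1) (h6 : v W.a₆ ≤ 1) {x y : L} (h : W.Nonsingular x y)
    (hx : v x ≤ 1) : v y ≤ 1 := by
  have e := (hW.equation_iff x y).mp h.1
  have h1 : v (y ^ 2) ≤ 1 := by
    rw [e]
    refine v.map_add_le (v.map_add_le (v.map_add_le ?_ ?_) ?_) h6
    · rw [map_pow]; exact pow_le_one₀ zero_le hx
    · rw [map_mul, map_pow]; exact mul_le_one' h2 (pow_le_one₀ zero_le hx)
    · rw [map_mul]; exact mul_le_one' h4 hx
  rw [map_pow] at h1
  exact (pow_le_one_iff_of_nonneg zero_le (by norm_num)).mp h1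

variable [DecidableEq L]

/-- **Integral points with nonsingular reduction**: a torsion point `(x,y)` (of order prime to
the residue characteristic) with integral coordinates and nonsingular reduction is fixed by `σ`. -/
theorem IsShort.fixed_of_integral {W : WeierstrassCurve.Affine L} (hW : IsShort W)
    (v : Valuation L Γ₀) (σ : L →+* L)
    (hσv : ∀ c, v c ≤ 1 → v (σ c - c) < 1)
    (h2 : v W.a₂ ≤ 1) (h4 : v W.a₄ ≤ 1) (h6 : v W.a₆ ≤ 1) (hv2 : v 2 = 1)
    {n : ℕ} (hvn : v (n : L) = 1)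
    {x y : L} (h : W.Nonsingular x y) (h' : W.Nonsingular (σ x) (σ y))
    (hx : v x ≤ 1) (hns : v y = 1 ∨ v (3 * x ^ 2 + 2 * W.a₂ * x + W.a₄) = 1)
    (hP : n • Point.some x y h = 0) (hP' : n • Point.some (σ x) (σ y) h' = 0) :
    σ x = x ∧ σ y = y := by
  have hy : v y ≤ 1 := hW.val_y_le_one v h2 h4 h6 h hx
  have hxx : v (σ x - x) < 1 := hσv x hx
  have hyy : v (σ y - y) < 1 := hσv y hy
  have hx' : v (σ x) ≤ 1 := by
    have : σ x = x + (σ x - x) := by ring
    rw [this]; exact v.map_add_le hx hxx.le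
  have hclose : v (σ x - x) < v (σ y + y) ∨
      v (σ y - y) < v (σ x ^ 2 + σ x * x + x ^ 2 + W.a₂ * (σ x + x) + W.a₄) := by
    rcases hns with hy1 | hg
    · left
      have h2y : v (2 * y) = 1 := by rw [map_mul, hv2, hy1, mul_one]
      have : σ y + y = 2 * y + (σ y - y) := by ring
      rw [this, v.map_add_eq_of_lt_left (by rw [h2y]; exact hyy), h2y]
      exact hxx
    · right
      have : σ x ^ 2 + σ x * x + x ^ 2 + W.a₂ * (σ x + x) + W.a₄ =
          (3 * x ^ 2 + 2 * W.a₂ * x + W.a₄) + (σ x - x) * (σ x + 2 * x + W.a₂) := by ring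
      have hsmall : v ((σ x - x) * (σ x + 2 * x + W.a₂)) < 1 := by
        rw [map_mul]
        refine lt_one_mul_le hxx ?_
        refine v.map_add_le (v.map_add_le hx' ?_) h2
        rw [map_mul, hv2, one_mul]; exact hx
      rw [this, v.map_add_eq_of_lt_left (by rw [hg]; exact hsmall), hg]
      exact hyy
  have hD := hW.inE1_sub v h2 h h' hx hx' hclose
  have hnD : n • (Point.some (σ x) (σ y) h' - Point.some x y h) = 0 := by
    rw [smul_sub, hP, hP', sub_zero]
  have := hW.no_torsion_inE1 v h2 h4 h6 hv2 hvn hD hnD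
  have heq : Point.some (σ x) (σ y) h' = Point.some x y h := sub_eq_zero.mp this
  simpa using heq

namespace IsLeg

variable {W : WeierstrassCurve.Affine L} {ε e : L} (hW : IsLeg W ε e)

include hW

lemma val_a₂_le_one (v : Valuation L Γ₀) (hε : v ε ≤ 1) (he : v e ≤ 1) : v W.a₂ ≤ 1 := by
  rw [hW.a₂, v.map_neg]; exact v.map_add_le hε he

lemma val_a₄_le_one (v : Valuation L Γ₀) (hε : v ε ≤ 1) (he : v e ≤ 1) : v W.a₄ ≤ 1 := by
  rw [hW.a₄, map_mul]; exact mul_le_one' hε he

lemma val_a₆_le_one (v : Valuation L Γ₀) : v W.a₆ ≤ 1 := by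
  rw [hW.a₆, map_zero]; exact zero_le

/-- the derivative of the cubic, in factored form -/
lemma deriv_eq (x : L) : 3 * x ^ 2 + 2 * W.a₂ * x + W.a₄ =
    (x - ε) * (x - e) + x * (x - e) + x * (x - ε) := by
  rw [hW.a₂, hW.a₄]; ring

/-- A point that is not in the kernel of reduction and is killed by a unit integer is... not
in the kernel of reduction. -/
lemma val_x_le_one_of_torsion (v : Valuation L Γ₀) (hε : v ε ≤ 1) (he : v e ≤ 1)
    (hv2 : v 2 = 1) {n : ℕ} (hvn : v (n : L) = 1) {x y : L} (h : W.Nonsingular x y)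
    (hP : n • Point.some x y h = 0) : v x ≤ 1 := by
  by_contra hcon
  have hE1 : InE1 v (Point.some x y h) := not_le.mp hcon
  have := hW.toIsShort.no_torsion_inE1 v (hW.val_a₂_le_one v hε he) (hW.val_a₄_le_one v hε he)
    (hW.val_a₆_le_one v) hv2 hvn hE1 hP
  exact Point.some_ne_zero h this

/-- Good reduction: `ε`, `e`, `ε - e` units. -/
theorem galois_fixed_good (v : Valuation L Γ₀) (σ : L →+* L)
    (hσv : ∀ c, v c ≤ 1 → v (σ c - c) < 1)
    (hv2 : v 2 = 1) (hε : v ε = 1) (he : v e = 1) (hεe : v (ε - e) = 1)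
    {n : ℕ} (hvn : v (n : L) = 1)
    {x y : L} (h : W.Nonsingular x y) (h' : W.Nonsingular (σ x) (σ y))
    (hP : n • Point.some x y h = 0) (hP' : n • Point.some (σ x) (σ y) h' = 0) :
    σ x = x ∧ σ y = y := by
  have h2 := hW.val_a₂_le_one v hε.le he.le
  have h4 := hW.val_a₄_le_one v hε.le he.le
  have h6 := hW.val_a₆_le_one v
  have hx : v x ≤ 1 := hW.val_x_le_one_of_torsion v hε.le he.le hv2 hvn h hP
  have hy : v y ≤ 1 := hW.toIsShort.val_y_le_one v h2 h4 h6 h hx
  refine hW.toIsShort.fixed_of_integral v σ hσv h2 h4 h6 hv2 hvn h h' hx ?_ hP hP'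
  rcases lt_or_eq_of_le hy with hy1 | hy1
  swap
  · exact Or.inl hy1
  right
  rw [hW.deriv_eq]
  have heq := hW.equation h
  have hprod : v x * v (x - ε) * v (x - e) < 1 := by
    rw [← map_mul, ← map_mul, ← heq, map_pow]
    exact pow_lt_one₀ zero_le hy1 (by norm_num)
  have hxε : v (x - ε) ≤ 1 := v.map_sub_le hx hε.le
  have hxe : v (x - e) ≤ 1 := v.map_sub_le hx he.le
  -- one of the three factors is small
  by_cases c1 : v x < 1
  · have a1 : v (x - ε) = 1 := by rw [v.map_sub_eq_of_lt_right (by rw [hε]; exact c1), hε]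
    have a2 : v (x - e) = 1 := by rw [v.map_sub_eq_of_lt_right (by rw [he]; exact c1), he]
    have : (x - ε) * (x - e) + x * (x - e) + x * (x - ε) =
        (x - ε) * (x - e) + x * ((x - e) + (x - ε)) := by ring
    rw [this, v.map_add_eq_of_lt_left]
    · rw [map_mul, a1, a2, mul_one]
    · rw [map_mul, map_mul, a1, a2, mul_one]
      exact lt_one_mul_le c1 (v.map_add_le a2.le a1.le)
  have c1' : v x = 1 := le_antisymm hx (not_lt.mp c1)
  by_cases c2 : v (x - ε) < 1
  · have a2 : v (x - e) = 1 := by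
      have : x - e = (ε - e) + (x - ε) := by ring
      rw [this, v.map_add_eq_of_lt_left (by rw [hεe]; exact c2), hεe]
    have : (x - ε) * (x - e) + x * (x - e) + x * (x - ε) =
        x * (x - e) + (x - ε) * ((x - e) + x) := by ring
    rw [this, v.map_add_eq_of_lt_left]
    · rw [map_mul, c1', a2, mul_one]
    · rw [map_mul, map_mul, c1', a2, mul_one]
      exact lt_one_mul_le c2 (v.map_add_le a2.le c1'.le)
  have c2' : v (x - ε) = 1 := le_antisymm hxε (not_lt.mp c2)
  have c3 : v (x - e) < 1 := by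
    rw [c1', c2', one_mul, one_mul] at hprod
    exact hprod
  have : (x - ε) * (x - e) + x * (x - e) + x * (x - ε) =
      x * (x - ε) + (x - e) * ((x - ε) + x) := by ring
  rw [this, v.map_add_eq_of_lt_left]
  · rw [map_mul, c1', c2', mul_one]
  · rw [map_mul, map_mul, c1', c2', mul_one]
    exact lt_one_mul_le c3 (v.map_add_le c2'.le c1'.le)

/-- On the multiplicative model, an affine point with `v x = 1` has nonsingular reduction. -/
lemma nonsing_of_val_x_eq_one (v : Valuation L Γ₀) (he : v e = 1) (hε1 : v ε < 1)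
    {x y : L} (h : W.Nonsingular x y) (hx : v x = 1) :
    v y = 1 ∨ v (3 * x ^ 2 + 2 * W.a₂ * x + W.a₄) = 1 := by
  have h2 := hW.val_a₂_le_one v hε1.le he.le
  have h4 := hW.val_a₄_le_one v hε1.le he.le
  have h6 := hW.val_a₆_le_one v
  have hy : v y ≤ 1 := hW.toIsShort.val_y_le_one v h2 h4 h6 h hx.le
  rcases lt_or_eq_of_le hy with hy1 | hy1
  swap
  · exact Or.inl hy1
  right
  rw [hW.deriv_eq]
  have heq := hW.equation h
  have c2' : v (x - ε) = 1 := by rw [v.map_sub_eq_of_lt_left (by rw [hx]; exact hε1), hx]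
  have hprod : v x * v (x - ε) * v (x - e) < 1 := by
    rw [← map_mul, ← map_mul, ← heq, map_pow]
    exact pow_lt_one₀ zero_le hy1 (by norm_num)
  have c3 : v (x - e) < 1 := by
    rw [hx, c2', one_mul, one_mul] at hprod
    exact hprod
  have : (x - ε) * (x - e) + x * (x - e) + x * (x - ε) =
      x * (x - ε) + (x - e) * ((x - ε) + x) := by ring
  rw [this, v.map_add_eq_of_lt_left]
  · rw [map_mul, hx, c2', mul_one]
  · rw [map_mul, map_mul, hx, c2', mul_one]
    exact lt_one_mul_le c3 (v.map_add_le c2'.le hx.le)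

/-- `v y = v x` for points of node type. -/
lemma val_y_eq_val_x (v : Valuation L Γ₀) (he : v e = 1)
    {x y : L} (h : W.Nonsingular x y) (hx1 : v ε < v x) (hx2 : v x < 1) : v y = v x := by
  have heq := hW.equation h
  have a1 : v (x - ε) = v x := v.map_sub_eq_of_lt_left hx1
  have a2 : v (x - e) = 1 := by rw [v.map_sub_eq_of_lt_right (by rw [he]; exact hx2), he]
  have : v y ^ 2 = v x ^ 2 := by
    rw [← map_pow, heq, map_mul, map_mul, a1, a2, mul_one, sq]
  exact (pow_left_inj₀ zero_le zero_le (by norm_num)).mp this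

/-- Multiplicative reduction: `e` a unit, `0 < v ε < 1`, and `v ε = v a ^ p` with `a` fixed by
`σ`.  The component statement `hF3` (see `IsLeg.torsion_val`) is taken as a hypothesis. -/
theorem galois_fixed_mult (v : Valuation L Γ₀) (σ : L →+* L)
    (hσv : ∀ c, v c ≤ 1 → v (σ c - c) < 1) (hσε : σ ε = ε) (hσe : σ e = e)
    (hv2 : v 2 = 1) (he : v e = 1) (hε0 : ε ≠ 0) (hε1 : v ε < 1)
    {p : ℕ} (hp : p.Prime) (hp2 : p ≠ 2) (hvp : v (p : L) = 1)
    (a : L) (hσa : σ a = a) (hεa : v ε = v a ^ p)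
    (hF3 : ∀ {x y : L} (h : W.Nonsingular x y), v ε < v x → v x < 1 →
      p • Point.some x y h = 0 → ∃ j : ℤ, v x ^ p = v ε ^ (2 * j))
    {x y : L} (h : W.Nonsingular x y) (h' : W.Nonsingular (σ x) (σ y))
    (hP : p • Point.some x y h = 0) (hP' : p • Point.some (σ x) (σ y) h' = 0) :
    σ x = x ∧ σ y = y := by
  have h2 := hW.val_a₂_le_one v hε1.le he.le
  have h4 := hW.val_a₄_le_one v hε1.le he.le
  have h6 := hW.val_a₆_le_one v
  have hx : v x ≤ 1 := hW.val_x_le_one_of_torsion v hε1.le he.le hv2 hvp h hP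
  have he0 : e ≠ 0 := by
    rintro rfl; rw [map_zero] at he; exact zero_ne_one he
  have hεe : ε * e ≠ 0 := mul_ne_zero hε0 he0
  rcases lt_or_eq_of_le hx with hx1 | hx1
  swap
  · -- `v x = 1`
    exact hW.toIsShort.fixed_of_integral v σ hσv h2 h4 h6 hv2 hvp h h' hx
      (hW.nonsing_of_val_x_eq_one v he hε1 h hx1) hP hP'
  by_cases hxε : v ε < v x
  · -- node type
    obtain ⟨j, hj⟩ := hF3 h hxε hx1 hP
    have ha0 : a ≠ 0 := by
      rintro rfl
      rw [map_zero, zero_pow hp.ne_zero] at hεa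
      exact hε0 ((v.zero_iff).mp hεa)
    have hva0 : v a ≠ 0 := (v.ne_zero_iff).mpr ha0
    have hvx : v x = v (a ^ (2 * j)) := by
      rw [map_zpow₀]
      have : v x ^ p = (v a ^ (2 * j)) ^ p := by
        rw [hj, hεa, ← zpow_natCast (v a) p, ← zpow_mul, ← zpow_natCast (v a ^ (2 * j)) p,
          ← zpow_mul, mul_comm]
      exact (pow_left_inj₀ zero_le zero_le hp.ne_zero).mp this
    set r := a ^ (2 * j) with hr
    have hr0 : r ≠ 0 := zpow_ne_zero _ ha0
    have hvr0 : v r ≠ 0 := (v.ne_zero_iff).mpr hr0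
    have hσr : σ r = r := by rw [hr, map_zpow₀, hσa]
    have key : ∀ c : L, v c = v r → v (σ c - c) < v c := by
      intro c hc
      have hu : v (c / r) = 1 := by rw [map_div₀, hc, div_self hvr0]
      have hlt := hσv (c / r) hu.le
      have e1 : σ c - c = r * (σ (c / r) - c / r) := by
        rw [map_div₀, hσr]; field_simp
      rw [e1, map_mul, hc]
      exact mul_lt_of_lt_one_right₀ hvr0 hlt
    have hvy : v y = v x := hW.val_y_eq_val_x v he h hxε hx1
    have hxx := key x hvx
    have hyy := key y (hvy.trans hvx)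
    have hx' : v (σ x) ≤ 1 := by rw [val_eq_of_close v hxx]; exact hx
    have hclose : v (σ x - x) < v (σ y + y) := by
      rw [val_add_of_close v hv2 hyy, hvy]; exact hxx
    have hD := hW.toIsShort.inE1_sub v h2 h h' hx hx' (Or.inl hclose)
    have hnD : p • (Point.some (σ x) (σ y) h' - Point.some x y h) = 0 := by
      rw [smul_sub, hP, hP', sub_zero]
    have := hW.toIsShort.no_torsion_inE1 v h2 h4 h6 hv2 hvp hD hnD
    have heq : Point.some (σ x) (σ y) h' = Point.some x y h := sub_eq_zero.mp this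
    simpa using heq
  · -- component of `T₀`: `v x ≤ v ε`
    have hxε' : v x ≤ v ε := not_lt.mp hxε
    have hT2 := hW.two_nsmul_T0 hεe
    obtain ⟨k, hk⟩ := hp.eq_two_or_odd'.resolve_left hp2
    have hx0 : x ≠ 0 := by
      rintro rfl
      have hy0 : y = 0 := by
        have := hW.equation h
        simpa using this
      subst hy0
      have : p • Point.some 0 0 h = Point.some 0 0 h := by
        have h2T : (2 : ℕ) • Point.some 0 0 h = 0 := hT2
        rw [hk, add_smul, mul_comm, mul_smul, one_smul, h2T, smul_zero, zero_add]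
      rw [this] at hP
      exact Point.some_ne_zero h hP
    have hσx0 : σ x ≠ 0 := fun h0 => hx0 (by
      have := (map_eq_zero σ).mp h0
      exact this)
    obtain ⟨hQ, hQeq⟩ := hW.add_T0 hεe h hx0
    obtain ⟨hQ', hQeq'⟩ := hW.add_T0 hεe h' hσx0
    have hv2p : v ((2 * p : ℕ) : L) = 1 := by
      push_cast; rw [map_mul, hv2, hvp, mul_one]
    have hnQ : (2 * p) • Point.some (ε * e / x) (-(ε * e * y / x ^ 2)) hQ = 0 := by
      rw [← hQeq, smul_add, mul_smul, hP, smul_zero, mul_comm, mul_smul, hT2, smul_zero,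
        add_zero]
    have hnQ' : (2 * p) • Point.some (ε * e / σ x) (-(ε * e * σ y / σ x ^ 2)) hQ' = 0 := by
      rw [← hQeq', smul_add, mul_smul, hP', smul_zero, mul_comm, mul_smul, hT2, smul_zero,
        add_zero]
    have e1 : σ (ε * e / x) = ε * e / σ x := by
      rw [map_div₀, map_mul, hσε, hσe]
    have e2 : σ (-(ε * e * y / x ^ 2)) = -(ε * e * σ y / σ x ^ 2) := by
      rw [map_neg, map_div₀, map_mul, map_mul, map_pow, hσε, hσe]
    have hvx0 : v x ≠ 0 := (v.ne_zero_iff).mpr hx0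
    have hxQ : v (ε * e / x) ≤ 1 :=
      hW.val_x_le_one_of_torsion v hε1.le he.le hv2 hv2p hQ hnQ
    have hxQ1 : v (ε * e / x) = 1 := by
      refine le_antisymm hxQ ?_
      rw [map_div₀, map_mul, he, mul_one]
      exact (one_le_div₀ (zero_lt_iff.mpr hvx0)).mpr hxε'
    have hQ'' : W.Nonsingular (σ (ε * e / x)) (σ (-(ε * e * y / x ^ 2))) := by
      rw [e1, e2]; exact hQ'
    have hnQ'' : (2 * p) • Point.some (σ (ε * e / x)) (σ (-(ε * e * y / x ^ 2))) hQ'' = 0 := by
      have : Point.some (σ (ε * e / x)) (σ (-(ε * e * y / x ^ 2))) hQ'' =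
          Point.some (ε * e / σ x) (-(ε * e * σ y / σ x ^ 2)) hQ' := by
        simp only [e1, e2]
      rw [this]; exact hnQ'
    obtain ⟨f1, f2⟩ := hW.toIsShort.fixed_of_integral v σ hσv h2 h4 h6 hv2 hv2p hQ hQ'' hxQ
      (hW.nonsing_of_val_x_eq_one v he hε1 hQ hxQ1) hnQ hnQ''
    rw [e1] at f1
    rw [e2] at f2
    have g1 : σ x = x := by
      have := div_eq_div_iff hσx0 hx0 |>.mp f1
      have h3 : ε * e * x = ε * e * σ x := by linear_combination this
      exact (mul_left_cancel₀ hεe h3).symm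
    refine ⟨g1, ?_⟩
    rw [g1] at f2
    have hx2 : x ^ 2 ≠ 0 := pow_ne_zero _ hx0
    have h4' : ε * e * σ y / x ^ 2 = ε * e * y / x ^ 2 := neg_injective f2
    have h5 : ε * e * σ y = ε * e * y := by
      have := div_eq_div_iff hx2 hx2 |>.mp h4'
      exact mul_right_cancel₀ hx2 this
    exact mul_left_cancel₀ hεe h5

end IsLeg

end Fermat.Agent.H4
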